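import Fermat.Agent.GoldbachSchnirelmann.Pairs
import Mathlib.NumberTheory.Harmonic.Bounds
import Mathlib.Data.Int.CardIntervalMod
import Mathlib.Tactic

/-!
# The inequality of Brun and Titchmarsh

Selberg's sieve for the integers `≤ N` of a class modulo `q`, by the primes `≤ z` prime to `q`:
at most `C N / (φ q log (N / q))` primes `≤ N` lie in a class modulo `q`.
-/

set_option autoImplicit false

noncomputable section

namespace FA.PrimesMinusOne

open Finset ArithmeticFunction BoundingSieve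
open FA.GoldbachSchnirelmann (selbergDenom siftedSum_le sqfreeUpTo harmonic_le_sqfree
  selbergDenom_pos)

/-- `d ↦ 1 / d`. -/
def invFun : ArithmeticFunction ℝ := ⟨fun n => (n : ℝ)⁻¹, by simp⟩

theorem invFun_apply (n : ℕ) : invFun n = (n : ℝ)⁻¹ := rfl

theorem invFun_isMultiplicative : invFun.IsMultiplicative :=
  ⟨by simp [invFun_apply], fun {a b} _ => by simp [invFun_apply, mul_comm]⟩

/-- The primes `≤ z` prime to `q`. -/
def sievePrimes (q z : ℕ) : Finset ℕ := (Icc 1 z).filter fun p => p.Prime ∧ ¬ p ∣ q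

/-- The product of the primes `≤ z` prime to `q`. -/
def classPrimes (q z : ℕ) : ℕ := ∏ p ∈ sievePrimes q z, p

theorem prime_of_sievePrimes {q z p : ℕ} (hp : p ∈ sievePrimes q z) : p.Prime :=
  (mem_filter.1 hp).2.1

theorem squarefree_classPrimes (q z : ℕ) : Squarefree (classPrimes q z) :=
  squarefree_prod_of_pairwise_isCoprime (fun _ hp _ hp' h => Nat.coprime_iff_isRelPrime.1
    ((Nat.coprime_primes (prime_of_sievePrimes hp) (prime_of_sievePrimes hp')).2 h))
    fun _ hp => (prime_of_sievePrimes hp).squarefree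

theorem classPrimes_coprime (q z : ℕ) : (classPrimes q z).Coprime q :=
  Nat.Coprime.prod_left fun _ hp =>
    (prime_of_sievePrimes hp).coprime_iff_not_dvd.2 (mem_filter.1 hp).2.2

/-- The sieve of a class modulo `q`. -/
def classSieve (N q a z : ℕ) : BoundingSieve where
  support := (Ioc 0 N).filter fun n => n ≡ a [MOD q]
  prodPrimes := classPrimes q z
  prodPrimes_squarefree := squarefree_classPrimes q z
  weights _ := 1
  weights_nonneg _ := zero_le_one
  totalMass := (N : ℝ) / q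
  nu := invFun
  nu_mult := invFun_isMultiplicative
  nu_pos_of_prime p hp _ := by
    rw [invFun_apply]
    exact inv_pos.2 (Nat.cast_pos.2 hp.pos)
  nu_lt_one_of_prime p hp _ := by
    rw [invFun_apply]
    exact inv_lt_one_of_one_lt₀ (Nat.one_lt_cast.2 hp.one_lt)

theorem abs_card_class_sub_div_le {q : ℕ} (hq : 0 < q) (N r : ℕ) :
    |(((Ioc 0 N).filter fun n => n ≡ r [MOD q]).card : ℝ) - (N : ℝ) / q| ≤ 1 := by
  have h := Nat.Ioc_filter_modEq_card 0 N hq r
  obtain ⟨u, hu⟩ : ∃ u : ℚ, u = ((N : ℚ) - r) / q := ⟨_, rfl⟩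
  obtain ⟨v, hv⟩ : ∃ v : ℚ, v = (((0 : ℕ) : ℚ) - r) / q := ⟨_, rfl⟩
  rw [← hu, ← hv] at h
  have huv : u - v = (N : ℚ) / q := by
    rw [hu, hv, ← sub_div]
    push_cast
    ring
  have hle : ⌊v⌋ ≤ ⌊u⌋ := by
    refine Int.floor_mono ?_
    have : (0 : ℚ) ≤ (N : ℚ) / q := by positivity
    linarith
  rw [max_eq_left (sub_nonneg.2 hle)] at h
  have h2 : |(((Ioc 0 N).filter fun n => n ≡ r [MOD q]).card : ℚ) - (N : ℚ) / q| ≤ 1 := by
    rw [← Int.cast_natCast (R := ℚ) (((Ioc 0 N).filter _).card), h, Int.cast_sub, ← huv, abs_le]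
    constructor <;>
      linarith [Int.floor_le u, Int.lt_floor_add_one u, Int.floor_le v, Int.lt_floor_add_one v]
  have h3 := (Rat.cast_le (K := ℝ)).2 h2
  push_cast at h3
  exact h3

theorem classSieve_rem {N q a z d : ℕ} (hq : 0 < q)
    (hd : d ∈ Nat.divisors (classSieve N q a z).prodPrimes) :
    |(classSieve N q a z).rem d| ≤ d := by
  have hd1 := Nat.pos_of_mem_divisors hd
  have hco : q.Coprime d := Nat.Coprime.coprime_dvd_right (Nat.dvd_of_mem_divisors hd)
    (classPrimes_coprime q z).symm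
  obtain ⟨r, hr1, hr2⟩ := Nat.chineseRemainder hco a 0
  have e : (((Ioc 0 N).filter fun n => n ≡ a [MOD q]).filter (d ∣ ·)) =
      (Ioc 0 N).filter fun n => n ≡ r [MOD q * d] := by
    rw [filter_filter]
    refine filter_congr fun n _ => ?_
    rw [← Nat.modEq_and_modEq_iff_modEq_mul hco, ← Nat.modEq_zero_iff_dvd]
    exact ⟨fun h => ⟨h.1.trans hr1.symm, h.2.trans hr2.symm⟩,
      fun h => ⟨h.1.trans hr1, h.2.trans hr2⟩⟩
  have hm : (classSieve N q a z).multSum d =
      (((Ioc 0 N).filter fun n => n ≡ r [MOD q * d]).card : ℝ) := by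
    simp only [multSum, classSieve]
    rw [sum_boole, e]
  rw [rem, hm]
  refine le_trans (le_trans (le_of_eq ?_) (abs_card_class_sub_div_le (Nat.mul_pos hq hd1) N r))
    (Nat.one_le_cast.2 hd1)
  congr 2
  simp only [classSieve, invFun_apply]
  push_cast
  ring

theorem selbergTerms_classSieve {N q a z l : ℕ} (hl : Squarefree l) :
    (classSieve N q a z).selbergTerms l = ((l.totient : ℕ) : ℝ)⁻¹ := by
  rw [selbergTerms_apply]
  simp only [classSieve, invFun_apply]
  have h1 : (l : ℝ) = ∏ p ∈ l.primeFactors, (p : ℝ) := by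
    rw [← Nat.cast_prod, Nat.prod_primeFactors_of_squarefree hl]
  have h2 := Nat.totient_eq_div_primeFactors_mul l
  rw [Nat.prod_primeFactors_of_squarefree hl, Nat.div_self (Nat.pos_of_ne_zero hl.ne_zero),
    one_mul] at h2
  rw [h1, h2, Nat.cast_prod, ← prod_inv_distrib, ← prod_inv_distrib, ← prod_mul_distrib]
  refine prod_congr rfl fun p hp => ?_
  have hp1 : (1 : ℝ) < p := Nat.one_lt_cast.2 (Nat.prime_of_mem_primeFactors hp).one_lt
  rw [Nat.cast_sub (Nat.prime_of_mem_primeFactors hp).one_lt.le, Nat.cast_one,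
    ← mul_inv, mul_sub, mul_one, mul_inv_cancel₀ (by linarith)]

theorem sum_powerset_inv_totient {n : ℕ} (hn : 0 < n) :
    ∑ T ∈ n.primeFactors.powerset, (((∏ p ∈ T, p).totient : ℕ) : ℝ)⁻¹ =
      (n : ℝ) / (n.totient : ℕ) := by
  have h : ∀ T ∈ n.primeFactors.powerset, (((∏ p ∈ T, p).totient : ℕ) : ℝ)⁻¹ =
      ∏ p ∈ T, ((p : ℝ) - 1)⁻¹ := by
    intro T hT
    rw [mem_powerset] at hT
    have hpr : ∀ p ∈ T, p.Prime := fun p hp => Nat.prime_of_mem_primeFactors (hT hp)
    rw [Nat.totient_eq_div_primeFactors_mul, Nat.primeFactors_prod hpr,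
      Nat.div_self (prod_pos fun p hp => (hpr p hp).pos), one_mul, Nat.cast_prod,
      ← prod_inv_distrib]
    exact prod_congr rfl fun p hp => by rw [Nat.cast_sub (hpr p hp).one_lt.le, Nat.cast_one]
  rw [sum_congr rfl h, ← prod_one_add]
  have h2 := Nat.totient_mul_prod_primeFactors n
  have h3 : ((n.totient : ℕ) : ℝ) ≠ 0 := Nat.cast_ne_zero.2 (Nat.totient_pos.2 hn).ne'
  rw [eq_div_iff h3, prod_congr rfl (g := fun p : ℕ => (p : ℝ) / ((p : ℝ) - 1)) fun p hp => ?_,
    prod_div_distrib, div_mul_eq_mul_div, div_eq_iff]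
  · have h4 := congrArg (Nat.cast (R := ℝ)) h2
    rw [Nat.cast_mul, Nat.cast_prod, Nat.cast_mul, Nat.cast_prod] at h4
    rw [mul_comm, h4]
    congr 1
    exact prod_congr rfl fun p hp => by
      rw [Nat.cast_sub (Nat.prime_of_mem_primeFactors hp).one_lt.le, Nat.cast_one]
  · refine prod_ne_zero_iff.2 fun p hp => sub_ne_zero.2 ?_
    exact (Nat.one_lt_cast.2 (Nat.prime_of_mem_primeFactors hp).one_lt).ne'
  · have hp1 : (1 : ℝ) < p := Nat.one_lt_cast.2 (Nat.prime_of_mem_primeFactors hp).one_lt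
    rw [inv_eq_one_div, eq_div_iff (by linarith), add_mul, div_mul_cancel₀ _ (by linarith)]
    ring

theorem le_selbergDenom {N q a z : ℕ} (hq : 0 < q) :
    Real.log (z + 1) / 2 ≤ (q : ℝ) / (q.totient : ℕ) * selbergDenom (classSieve N q a z) z := by
  classical
  have h1 := log_add_one_le_harmonic z
  rw [harmonic_eq_sum_Icc] at h1
  push_cast at h1
  have h2 := harmonic_le_sqfree z
  simp only [one_div] at h2
  have h3 : ∑ u ∈ sqfreeUpTo z, ((u : ℕ) : ℝ)⁻¹ ≤
      (q : ℝ) / (q.totient : ℕ) * selbergDenom (classSieve N q a z) z := by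
    obtain ⟨D, hD⟩ : ∃ D, D = (Nat.divisors (classSieve N q a z).prodPrimes).filter (· ≤ z) :=
      ⟨_, rfl⟩
    have hsq : ∀ l ∈ D, Squarefree l := fun l hl =>
      squarefree_of_mem_divisors_prodPrimes (mem_filter.1 (hD ▸ hl)).1
    rw [selbergDenom, ← hD, sum_congr rfl fun l hl => selbergTerms_classSieve (hsq l hl),
      ← sum_powerset_inv_totient hq, sum_mul_sum, ← sum_product']
    refine le_trans (sum_le_sum (g := fun u : ℕ =>
      (((∏ p ∈ u.primeFactors.filter (· ∣ q), p).totient : ℕ) : ℝ)⁻¹ *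
        (((∏ p ∈ u.primeFactors.filter (fun p => ¬ p ∣ q), p).totient : ℕ) : ℝ)⁻¹)
          fun u hu => ?_) ?_
    · simp only [sqfreeUpTo, mem_filter, mem_Icc] at hu
      rw [← mul_inv, ← Nat.cast_mul]
      refine inv_anti₀ (Nat.cast_pos.2 (Nat.mul_pos ?_ ?_)) (Nat.cast_le.2 ?_)
      · exact Nat.totient_pos.2 (prod_pos fun p hp =>
          (Nat.prime_of_mem_primeFactors (mem_filter.1 hp).1).pos)
      · exact Nat.totient_pos.2 (prod_pos fun p hp =>
          (Nat.prime_of_mem_primeFactors (mem_filter.1 hp).1).pos)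
      · refine (Nat.mul_le_mul (Nat.totient_le _) (Nat.totient_le _)).trans (le_of_eq ?_)
        rw [prod_filter_mul_prod_filter_not, Nat.prod_primeFactors_of_squarefree hu.2]
    · refine le_trans (le_of_eq ?_) (sum_le_sum_of_subset_of_nonneg
        (s := (sqfreeUpTo z).image fun u : ℕ => (u.primeFactors.filter (· ∣ q),
          ∏ p ∈ u.primeFactors.filter (fun p => ¬ p ∣ q), p)) (fun x hx => ?_)
        fun x _ _ => by positivity)
      · rw [sum_image]
        intro u hu v hv h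
        simp only [sqfreeUpTo, coe_filter, mem_Icc, Set.mem_ofPred_eq] at hu hv
        rw [← Nat.prod_primeFactors_of_squarefree hu.2, ← Nat.prod_primeFactors_of_squarefree hv.2,
          ← prod_filter_mul_prod_filter_not u.primeFactors (· ∣ q),
          ← prod_filter_mul_prod_filter_not v.primeFactors (· ∣ q)]
        exact congrArg (fun x : Finset ℕ × ℕ => (∏ p ∈ x.1, p) * x.2) h
      · obtain ⟨u, hu, rfl⟩ := mem_image.1 hx
        simp only [sqfreeUpTo, mem_filter, mem_Icc] at hu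
        refine mem_product.2 ⟨mem_powerset.2 fun p hp => ?_, hD ▸ mem_filter.2 ⟨?_, ?_⟩⟩
        · rw [mem_filter] at hp
          exact Nat.mem_primeFactors.2 ⟨Nat.prime_of_mem_primeFactors hp.1, hp.2, hq.ne'⟩
        · refine Nat.mem_divisors.2 ⟨?_, prodPrimes_ne_zero⟩
          show (∏ p ∈ u.primeFactors.filter (fun p => ¬ p ∣ q), p) ∣ ∏ p ∈ sievePrimes q z, p
          refine Finset.prod_dvd_prod_of_subset _ _ (fun p : ℕ => p) fun p hp => ?_
          rw [mem_filter] at hp
          rw [sievePrimes, mem_filter, mem_Icc]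
          exact ⟨⟨(Nat.prime_of_mem_primeFactors hp.1).one_le,
            (Nat.le_of_mem_primeFactors hp.1).trans hu.1.2⟩,
              Nat.prime_of_mem_primeFactors hp.1, hp.2⟩
        · refine le_trans (Nat.le_of_dvd hu.1.1 ?_) hu.1.2
          exact (prod_dvd_prod_of_subset _ _ _ (filter_subset _ _)).trans u.prod_primeFactors_dvd
  linarith

theorem card_prime_class_le_sieve {N q a : ℕ} (z : ℕ) :
    (((Icc 1 N).filter fun p => p.Prime ∧ p ≡ a [MOD q]).card : ℝ) ≤
      (classSieve N q a z).siftedSum + z := by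
  classical
  have h : ((Icc 1 N).filter fun p => p.Prime ∧ p ≡ a [MOD q]).card ≤
      (((classSieve N q a z).support).filter fun n => (classPrimes q z).Coprime n).card +
        (Icc 1 z).card := by
    refine (card_le_card (t := ((classSieve N q a z).support).filter
      (fun n => (classPrimes q z).Coprime n) ∪ Icc 1 z) fun p hp => ?_).trans (card_union_le _ _)
    rw [mem_filter, mem_Icc] at hp
    obtain ⟨⟨h1, h2⟩, hp, hpa⟩ := hp
    rcases le_or_gt p z with hz | hz
    · exact mem_union_right _ (mem_Icc.2 ⟨h1, hz⟩)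
    refine mem_union_left _ (mem_filter.2 ⟨mem_filter.2 ⟨mem_Ioc.2 ⟨h1, h2⟩, hpa⟩, ?_⟩)
    refine Nat.Coprime.prod_left fun l hl => ?_
    refine (Nat.coprime_primes (prime_of_sievePrimes hl) hp).2 fun e => ?_
    have := (mem_Icc.1 (mem_filter.1 hl).1).2
    omega
  rw [Nat.card_Icc, Nat.add_sub_cancel] at h
  refine (Nat.cast_le.2 h).trans (le_of_eq ?_)
  rw [Nat.cast_add]
  congr 1
  simp only [siftedSum, classSieve]
  rw [sum_boole]

/-- **The inequality of Brun and Titchmarsh.** -/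
theorem brunTitchmarsh {N q a : ℕ} (hq : 0 < q) (hqN : q < N) :
    (((Icc 1 N).filter fun p => p.Prime ∧ p ≡ a [MOD q]).card : ℝ) ≤
      24 * N / ((q.totient : ℕ) * Real.log ((N : ℝ) / q)) := by
  have hq0 : (0 : ℝ) < q := Nat.cast_pos.2 hq
  obtain ⟨y, hy⟩ : ∃ y, y = (N : ℝ) / q := ⟨_, rfl⟩
  rw [← hy]
  have hy1 : 1 < y := hy ▸ (one_lt_div hq0).2 (Nat.cast_lt.2 hqN)
  have hlog : 0 < Real.log y := Real.log_pos hy1
  obtain ⟨r, hr⟩ : ∃ r : ℝ, r = y ^ ((1 : ℝ) / 8) := ⟨_, rfl⟩
  have hr1 : 1 ≤ r := hr ▸ Real.one_le_rpow hy1.le (by norm_num)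
  obtain ⟨z, hz⟩ : ∃ z, z = ⌊r⌋₊ := ⟨_, rfl⟩
  have hz1 : 1 ≤ z := hz ▸ Nat.le_floor (by exact_mod_cast hr1)
  have hzr : (z : ℝ) ≤ r := hz ▸ Nat.floor_le (by linarith)
  have hzlog : Real.log y / 8 ≤ Real.log (z + 1) := by
    rw [show Real.log y / 8 = Real.log r by rw [hr, Real.log_rpow (by linarith)]; ring]
    exact Real.log_le_log (by linarith) (hz ▸ (Nat.lt_floor_add_one r).le)
  have hnu : ∀ d ∈ Nat.divisors (classSieve N q a z).prodPrimes,
      1 / (d : ℝ) ≤ (classSieve N q a z).nu d := fun d _ => by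
    simp [classSieve, invFun_apply]
  have hs := siftedSum_le (classSieve N q a z) z hz1 (fun d hd => classSieve_rem hq hd) hnu
  have hS0 := selbergDenom_pos (classSieve N q a z) z hz1
  have hS := le_selbergDenom (N := N) (a := a) (z := z) hq
  have htot : (0 : ℝ) < (q.totient : ℕ) := Nat.cast_pos.2 (Nat.totient_pos.2 hq)
  have hmain : y / selbergDenom (classSieve N q a z) z ≤
      16 * N / ((q.totient : ℕ) * Real.log y) := by
    rw [div_le_div_iff₀ hS0 (mul_pos htot hlog), hy, div_mul_eq_mul_div, div_le_iff₀ hq0, ← hy]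
    rw [div_mul_eq_mul_div, le_div_iff₀ htot] at hS
    have h1 : (q.totient : ℕ) * Real.log y ≤ 16 * ((q : ℝ) *
        selbergDenom (classSieve N q a z) z) := by
      have := mul_le_mul_of_nonneg_left hzlog htot.le
      linarith
    have := mul_le_mul_of_nonneg_left h1 (Nat.cast_nonneg (α := ℝ) N)
    linarith
  have hsmall : (z : ℝ) ^ 6 + z ≤ 8 * N / ((q.totient : ℕ) * Real.log y) := by
    have h1 : (z : ℝ) ≤ (z : ℝ) ^ 6 := le_self_pow₀ (Nat.one_le_cast.2 hz1) (by norm_num)
    have h2 : (z : ℝ) ^ 6 ≤ y ^ ((3 : ℝ) / 4) := by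
      refine (pow_le_pow_left₀ (Nat.cast_nonneg z) hzr 6).trans (le_of_eq ?_)
      rw [hr, ← Real.rpow_natCast, ← Real.rpow_mul (by linarith)]
      norm_num
    have h3 := Real.log_le_rpow_div (show 0 ≤ y by linarith) (ε := 1 / 4) (by norm_num)
    have h4 : y ^ ((3 : ℝ) / 4) * Real.log y ≤ 4 * y := by
      refine (mul_le_mul_of_nonneg_left h3 (Real.rpow_nonneg (by linarith) _)).trans (le_of_eq ?_)
      rw [mul_div_assoc', ← Real.rpow_add (by linarith)]
      norm_num
      ring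
    have h5 : ((q.totient : ℕ) : ℝ) * y ≤ N := by
      rw [hy, mul_div_assoc', div_le_iff₀ hq0, mul_comm]
      exact mul_le_mul_of_nonneg_left (Nat.cast_le.2 (Nat.totient_le q)) (Nat.cast_nonneg N)
    rw [le_div_iff₀ (mul_pos htot hlog)]
    have h6 := mul_le_mul_of_nonneg_left (mul_le_mul_of_nonneg_right
      (show (z : ℝ) ^ 6 + z ≤ 2 * y ^ ((3 : ℝ) / 4) by linarith) hlog.le) htot.le
    have h7 := mul_le_mul_of_nonneg_left h4 htot.le
    linarith
  refine (card_prime_class_le_sieve z).trans ?_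
  rw [show (classSieve N q a z).totalMass = y from hy.symm] at hs
  rw [show (24 : ℝ) * N / ((q.totient : ℕ) * Real.log y) = 16 * N / ((q.totient : ℕ) * Real.log y) +
    8 * N / ((q.totient : ℕ) * Real.log y) by ring]
  linarith

end FA.PrimesMinusOne
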