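import Fermat.Agent.PrimesMinusOne.BrunTitchmarsh
import Mathlib.Analysis.PSeries
import Mathlib.Analysis.Complex.ExponentialBounds
import Mathlib.Analysis.SpecialFunctions.Stirling
import Mathlib.NumberTheory.Chebyshev
import Mathlib.NumberTheory.ArithmeticFunction.VonMangoldt
import Mathlib.Analysis.SpecialFunctions.Pow.Asymptotics

/-!
# The sums of `1 / φ d` and of `Λ d / d`

`∑_{d ≤ n} 1 / φ d = c log n + O (1)` with `c = ∑ μ ² e / (e φ e)`, and
`∑_{d ≤ n} Λ d / d = log n + O (1)`.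
-/

set_option autoImplicit false

noncomputable section

namespace FA.PrimesMinusOne

open Finset Filter
open scoped Nat Topology ArithmeticFunction.vonMangoldt

/-- `μ ² e / (e φ e)`. -/
def divisorWeight (e : ℕ) : ℝ :=
  if Squarefree e then ((e : ℝ) * (e.totient : ℕ))⁻¹ else 0

/-- `∑ μ ² e / (e φ e)`. -/
def titchmarshConst : ℝ := ∑' e : ℕ, divisorWeight e

theorem divisorWeight_nonneg (e : ℕ) : 0 ≤ divisorWeight e := by
  unfold divisorWeight
  split_ifs <;> positivity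

theorem sqrt_le_totient {e : ℕ} (he : Squarefree e) : e ≤ 2 * e.totient ^ 2 := by
  have h2 := Nat.totient_eq_div_primeFactors_mul e
  rw [Nat.prod_primeFactors_of_squarefree he, Nat.div_self (Nat.pos_of_ne_zero he.ne_zero),
    one_mul] at h2
  have key : ∀ S : Finset ℕ, (∀ p ∈ S, p.Prime) →
      ∏ p ∈ S, p ≤ (if 2 ∈ S then 2 else 1) * (∏ p ∈ S, (p - 1)) ^ 2 := by
    intro S hS
    induction S using Finset.induction_on with
    | empty => simp
    | insert p S hp ih =>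
      have ih' := ih fun l hl => hS l (mem_insert_of_mem hl)
      have hpp := hS p (mem_insert_self p S)
      rw [prod_insert hp, prod_insert hp, mul_pow]
      rcases eq_or_ne p 2 with rfl | h2'
      · rw [if_neg hp] at ih'
        rw [if_pos (mem_insert_self 2 S)]
        calc 2 * ∏ p ∈ S, p ≤ 2 * (1 * (∏ p ∈ S, (p - 1)) ^ 2) := Nat.mul_le_mul_left _ ih'
          _ = _ := by simp
      · have hp3 : p ≤ (p - 1) ^ 2 := by
          have h3 : 3 ≤ p := by
            have := hpp.two_le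
            omega
          obtain ⟨m, rfl⟩ : ∃ m, p = m + 3 := ⟨p - 3, by omega⟩
          simp only [Nat.add_succ_sub_one]
          nlinarith
        have hmem : (2 ∈ insert p S) ↔ 2 ∈ S := by simp [h2'.symm]
        simp only [hmem]
        calc p * ∏ p ∈ S, p ≤ (p - 1) ^ 2 * ((if 2 ∈ S then 2 else 1) *
              (∏ p ∈ S, (p - 1)) ^ 2) := Nat.mul_le_mul hp3 ih'
          _ = _ := by ring
  have h := key e.primeFactors fun p hp => Nat.prime_of_mem_primeFactors hp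
  rw [Nat.prod_primeFactors_of_squarefree he, ← h2] at h
  refine h.trans (Nat.mul_le_mul_right _ ?_)
  split_ifs <;> norm_num

theorem divisorWeight_mul_le (e : ℕ) :
    divisorWeight e * (1 + Real.log e) ≤ 10 * (1 / (e : ℝ) ^ ((5 : ℝ) / 4)) := by
  unfold divisorWeight
  split_ifs with he
  · have he1 : (1 : ℝ) ≤ e := Nat.one_le_cast.2 (Nat.one_le_iff_ne_zero.2 he.ne_zero)
    have htot : (0 : ℝ) < (e.totient : ℕ) :=
      Nat.cast_pos.2 (Nat.totient_pos.2 (Nat.pos_of_ne_zero he.ne_zero))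
    have h1 : (e : ℝ) ^ ((1 : ℝ) / 2) ≤ 2 * (e.totient : ℕ) := by
      rw [← Real.sqrt_eq_rpow, Real.sqrt_le_left (by positivity)]
      have h : (e : ℝ) ≤ 2 * ((e.totient : ℕ) : ℝ) ^ 2 := by exact_mod_cast sqrt_le_totient he
      nlinarith
    have h2 := Real.log_le_rpow_div (show (0 : ℝ) ≤ e by linarith) (ε := 1 / 4) (by norm_num)
    have h3 : 1 + Real.log e ≤ 5 * (e : ℝ) ^ ((1 : ℝ) / 4) := by
      have := Real.one_le_rpow he1 (show (0 : ℝ) ≤ 1 / 4 by norm_num)
      linarith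
    rw [inv_mul_eq_div, mul_one_div, div_le_div_iff₀ (by positivity) (by positivity)]
    calc (1 + Real.log e) * (e : ℝ) ^ ((5 : ℝ) / 4)
        ≤ 5 * (e : ℝ) ^ ((1 : ℝ) / 4) * (e : ℝ) ^ ((5 : ℝ) / 4) :=
          mul_le_mul_of_nonneg_right h3 (by positivity)
      _ = 5 * ((e : ℝ) * (e : ℝ) ^ ((1 : ℝ) / 2)) := by
          rw [mul_assoc, ← Real.rpow_add (by linarith), ← Real.rpow_one_add' (by linarith)
            (by norm_num)]
          norm_num
      _ ≤ 5 * ((e : ℝ) * (2 * (e.totient : ℕ))) := by gcongr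
      _ = _ := by ring
  · rw [zero_mul]
    positivity

theorem summable_divisorWeight_log :
    Summable fun e : ℕ => divisorWeight e * (1 + Real.log e) :=
  Summable.of_nonneg_of_le
    (fun e => mul_nonneg (divisorWeight_nonneg e) (by linarith [Real.log_natCast_nonneg e]))
    divisorWeight_mul_le ((Real.summable_one_div_nat_rpow.2 (by norm_num)).mul_left 10)

theorem summable_divisorWeight : Summable divisorWeight :=
  Summable.of_nonneg_of_le divisorWeight_nonneg (fun e => le_mul_of_one_le_right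
    (divisorWeight_nonneg e) (by linarith [Real.log_natCast_nonneg e])) summable_divisorWeight_log

theorem one_le_titchmarshConst : 1 ≤ titchmarshConst := by
  refine le_trans ?_ (summable_divisorWeight.le_tsum 1 fun e _ => divisorWeight_nonneg e)
  simp [divisorWeight]

theorem inv_totient_eq_sum {d : ℕ} (hd : 0 < d) :
    ((d.totient : ℕ) : ℝ)⁻¹ = ∑ e ∈ d.divisors, divisorWeight e / ((d / e : ℕ) : ℝ) := by
  classical
  have hd0 : (d : ℝ) ≠ 0 := Nat.cast_ne_zero.2 hd.ne'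
  have h : ∀ e ∈ d.divisors, divisorWeight e / ((d / e : ℕ) : ℝ) =
      (if Squarefree e then ((e.totient : ℕ) : ℝ)⁻¹ else 0) / d := by
    intro e he
    have he' := Nat.dvd_of_mem_divisors he
    have he0 : (e : ℝ) ≠ 0 := Nat.cast_ne_zero.2 (Nat.pos_of_mem_divisors he).ne'
    rw [Nat.cast_div he' he0, divisorWeight]
    split_ifs
    · field_simp
    · simp
  rw [sum_congr rfl h, ← sum_div, ← sum_filter,
    Nat.sum_divisors_filter_squarefree hd.ne', Nat.factors_eq]
  have hset : (d.primeFactorsList : Multiset ℕ).toFinset = d.primeFactors := by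
    rfl
  simp only [Finset.prod_val, id]
  rw [hset, sum_powerset_inv_totient hd, div_div, mul_comm, div_mul_eq_div_div, div_self hd0,
    one_div]

theorem sum_inv_totient_eq (n : ℕ) :
    ∑ d ∈ Icc 1 n, ((d.totient : ℕ) : ℝ)⁻¹ =
      ∑ e ∈ Icc 1 n, divisorWeight e * (harmonic (n / e) : ℝ) := by
  classical
  rw [sum_congr rfl fun d hd => inv_totient_eq_sum (mem_Icc.1 hd).1]
  have hh : ∀ e : ℕ, (harmonic (n / e) : ℝ) = ∑ j ∈ Icc 1 (n / e), ((j : ℕ) : ℝ)⁻¹ := fun e => by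
    rw [harmonic_eq_sum_Icc]
    push_cast
    rfl
  simp only [hh, mul_sum, ← div_eq_mul_inv]
  rw [sum_sigma', sum_sigma']
  refine sum_nbij' (fun x => ⟨x.2, x.1 / x.2⟩) (fun y => ⟨y.1 * y.2, y.1⟩) ?_ ?_ ?_ ?_ ?_
  · rintro ⟨d, e⟩ hx
    simp only [mem_sigma, mem_Icc, Nat.mem_divisors] at hx ⊢
    obtain ⟨⟨h1, h2⟩, h3, -⟩ := hx
    have he : 1 ≤ e := Nat.pos_of_dvd_of_pos h3 h1
    exact ⟨⟨he, (Nat.le_of_dvd h1 h3).trans h2⟩, Nat.div_pos (Nat.le_of_dvd h1 h3) he,
      Nat.div_le_div_right h2⟩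
  · rintro ⟨e, j⟩ hx
    simp only [mem_sigma, mem_Icc, Nat.mem_divisors] at hx ⊢
    obtain ⟨⟨h1, -⟩, h3, h4⟩ := hx
    refine ⟨⟨Nat.mul_pos h1 h3, ?_⟩, dvd_mul_right e j, (Nat.mul_pos h1 h3).ne'⟩
    rw [mul_comm]
    exact (Nat.le_div_iff_mul_le h1).1 h4
  · rintro ⟨d, e⟩ hx
    simp only [mem_sigma, Nat.mem_divisors] at hx
    simp only [Nat.mul_div_cancel' hx.2.1]
  · rintro ⟨e, j⟩ hx
    simp only [mem_sigma, mem_Icc] at hx
    simp only [Nat.mul_div_cancel_left j hx.1.1]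
  · rintro ⟨d, e⟩ _
    rfl

theorem abs_sum_inv_totient_sub_le {n : ℕ} (hn : 1 ≤ n) :
    |∑ d ∈ Icc 1 n, ((d.totient : ℕ) : ℝ)⁻¹ - (∑ e ∈ Icc 1 n, divisorWeight e) * Real.log n| ≤
      ∑' e : ℕ, divisorWeight e * (1 + Real.log e) := by
  rw [sum_inv_totient_eq, sum_mul, ← sum_sub_distrib]
  refine (abs_sum_le_sum_abs _ _).trans (le_trans (sum_le_sum fun e he => ?_)
    (summable_divisorWeight_log.sum_le_tsum (Icc 1 n) fun e _ =>
      mul_nonneg (divisorWeight_nonneg e) (by linarith [Real.log_natCast_nonneg e])))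
  rw [mem_Icc] at he
  rw [← mul_sub, abs_mul, abs_of_nonneg (divisorWeight_nonneg e)]
  refine mul_le_mul_of_nonneg_left ?_ (divisorWeight_nonneg e)
  have h1 := harmonic_le_one_add_log (n / e)
  have h2 := log_add_one_le_harmonic (n / e)
  push_cast at h2
  have hne : (1 : ℝ) ≤ (n / e : ℕ) := Nat.one_le_cast.2 (Nat.div_pos he.2 he.1)
  have h3 := Real.log_le_log (by linarith) (show ((n / e : ℕ) : ℝ) ≤ n from
    Nat.cast_le.2 (Nat.div_le_self n e))
  have h4 : Real.log n ≤ Real.log ((n / e : ℕ) + 1) + Real.log e := by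
    rw [← Real.log_mul (by linarith) (Nat.cast_ne_zero.2 (by omega))]
    refine Real.log_le_log (Nat.cast_pos.2 hn) ?_
    exact_mod_cast (show n ≤ (n / e + 1) * e by
      rw [add_mul, one_mul]
      exact (Nat.lt_div_mul_add he.1).le)
  rw [abs_le]
  constructor <;> linarith [Real.log_natCast_nonneg e]

/-- **`∑_{d ≤ n} 1 / φ d ∼ c log n`.** -/
theorem tendsto_sum_inv_totient :
    Tendsto (fun n : ℕ => (∑ d ∈ Icc 1 n, ((d.totient : ℕ) : ℝ)⁻¹) / Real.log n) atTop
      (𝓝 titchmarshConst) := by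
  obtain ⟨K, hK⟩ : ∃ K, K = ∑' e : ℕ, divisorWeight e * (1 + Real.log e) := ⟨_, rfl⟩
  have hlog : Tendsto (fun n : ℕ => Real.log n) atTop atTop :=
    Real.tendsto_log_atTop.comp tendsto_natCast_atTop_atTop
  have hS : Tendsto (fun n : ℕ => ∑ e ∈ Icc 1 n, divisorWeight e) atTop (𝓝 titchmarshConst) := by
    refine ((summable_divisorWeight.hasSum.tendsto_sum_nat).comp (tendsto_add_atTop_nat 1)).congr
      fun n => ?_
    simp only [Function.comp_apply]
    rw [range_eq_Ico, ← sum_sdiff (show Icc 1 n ⊆ Ico 0 (n + 1) by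
      intro x; simp), show Ico 0 (n + 1) \ Icc 1 n = {0} by ext; simp; omega]
    simp [divisorWeight]
  have hE : Tendsto (fun n : ℕ => (∑ d ∈ Icc 1 n, ((d.totient : ℕ) : ℝ)⁻¹) / Real.log n -
      ∑ e ∈ Icc 1 n, divisorWeight e) atTop (𝓝 0) := by
    refine squeeze_zero_norm' ?_ (tendsto_const_nhds (x := K) |>.div_atTop hlog)
    filter_upwards [eventually_ge_atTop 2] with n hn
    have hl : 0 < Real.log n := Real.log_pos (Nat.one_lt_cast.2 (by omega))
    rw [Real.norm_eq_abs, div_sub' hl.ne', abs_div, abs_of_pos hl,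
      mul_comm (Real.log n)]
    exact div_le_div_of_nonneg_right (hK ▸ abs_sum_inv_totient_sub_le (by omega)) hl.le
  simpa using hE.add hS

theorem sum_vonMangoldt_mul_div (n : ℕ) :
    ∑ d ∈ Ioc 0 n, Λ d * (n / d : ℕ) = Real.log (n ! : ℕ) := by
  have h1 : ∀ d : ℕ, Λ d * (n / d : ℕ) = ∑ m ∈ Ioc 0 n, if d ∣ m then Λ d else 0 := fun d => by
    rw [← sum_filter, sum_const, Nat.Ioc_filter_dvd_card_eq_div, nsmul_eq_mul, mul_comm]
  simp only [h1]
  rw [sum_comm]
  have h2 : ∀ m ∈ Ioc 0 n, (∑ d ∈ Ioc 0 n, if d ∣ m then Λ d else 0) = Real.log (m : ℕ) := by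
    intro m hm
    rw [mem_Ioc] at hm
    rw [← ArithmeticFunction.vonMangoldt_sum, ← sum_filter]
    refine sum_congr ?_ fun _ _ => rfl
    ext d
    simp only [mem_filter, mem_Ioc, Nat.mem_divisors]
    exact ⟨fun h => ⟨h.2, hm.1.ne'⟩, fun h =>
      ⟨⟨Nat.pos_of_dvd_of_pos h.1 hm.1, (Nat.le_of_dvd hm.1 h.1).trans hm.2⟩, h.1⟩⟩
  rw [sum_congr rfl h2, ← Real.log_prod fun m hm => Nat.cast_ne_zero.2 (mem_Ioc.1 hm).1.ne',
    ← Nat.cast_prod]
  congr 2
  rw [← prod_Ico_id_eq_factorial]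
  exact prod_congr (by ext; simp; omega) fun _ _ => rfl

/-- **Mertens' first theorem.** -/
theorem abs_sum_vonMangoldt_div_sub_le {n : ℕ} (hn : 1 ≤ n) :
    |∑ d ∈ Ioc 0 n, Λ d / d - Real.log n| ≤ 6 := by
  have hn0 : (0 : ℝ) < n := Nat.cast_pos.2 hn
  have h := sum_vonMangoldt_mul_div n
  have hup : ∑ d ∈ Ioc 0 n, Λ d * (n / d : ℕ) ≤ n * ∑ d ∈ Ioc 0 n, Λ d / d := by
    rw [mul_sum]
    refine sum_le_sum fun d _ => ?_
    refine (mul_le_mul_of_nonneg_left Nat.cast_div_le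
      ArithmeticFunction.vonMangoldt_nonneg).trans (le_of_eq ?_)
    ring
  have hlow : n * ∑ d ∈ Ioc 0 n, Λ d / d - ∑ d ∈ Ioc 0 n, Λ d ≤
      ∑ d ∈ Ioc 0 n, Λ d * (n / d : ℕ) := by
    rw [mul_sum, ← sum_sub_distrib]
    refine sum_le_sum fun d hd => ?_
    have hd0 : (0 : ℝ) < d := Nat.cast_pos.2 (mem_Ioc.1 hd).1
    have h1 : (n : ℝ) / d - 1 ≤ (n / d : ℕ) := by
      rw [sub_le_iff_le_add, div_le_iff₀ hd0]
      exact_mod_cast (show n ≤ (n / d + 1) * d by
        rw [add_mul, one_mul]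
        exact (Nat.lt_div_mul_add (mem_Ioc.1 hd).1).le)
    refine le_trans (le_of_eq ?_) (mul_le_mul_of_nonneg_left h1
      ArithmeticFunction.vonMangoldt_nonneg)
    ring
  have hpsi : ∑ d ∈ Ioc 0 n, Λ d ≤ (Real.log 4 + 4) * n := by
    have := Chebyshev.psi_le_const_mul_self hn0.le
    rwa [Chebyshev.psi, Nat.floor_natCast] at this
  have hl4 : Real.log 4 ≤ 2 := by
    rw [Real.log_le_iff_le_exp (by norm_num)]
    have := Real.exp_one_gt_d9
    have h2 : Real.exp 2 = Real.exp 1 * Real.exp 1 := by rw [← Real.exp_add]; norm_num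
    nlinarith
  have hfac : Real.log (n ! : ℕ) ≤ n * Real.log n := by
    rw [← Real.log_pow]
    refine Real.log_le_log (Nat.cast_pos.2 (Nat.factorial_pos n)) ?_
    exact_mod_cast Nat.factorial_le_pow n
  have hfac2 : n * Real.log n - n ≤ Real.log (n ! : ℕ) := by
    have := Stirling.le_log_factorial_stirling (n := n) (by omega)
    have : 0 ≤ Real.log (n : ℝ) := Real.log_natCast_nonneg n
    have : 0 ≤ Real.log (2 * Real.pi) := Real.log_nonneg (by linarith [Real.two_le_pi])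
    linarith
  have h4 := mul_le_mul_of_nonneg_right hl4 hn0.le
  rw [abs_le]
  constructor
  · refine le_of_mul_le_mul_left ?_ hn0
    linarith
  · refine le_of_mul_le_mul_left ?_ hn0
    linarith

end FA.PrimesMinusOne
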