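import Fermat.Agent.PrimesMinusOne.TotientSum
import Fermat.Agent.Root.SummaryBombieriVinogradov
import Mathlib.Analysis.SpecialFunctions.Log.Base

/-!
# The primes `≡ 1` for the moduli up to a power of `N`
-/

set_option autoImplicit false

noncomputable section

namespace FA.PrimesMinusOne

open Finset Filter
open scoped Nat Topology ArithmeticFunction.vonMangoldt

/-- `π (N; d, 1)`. -/
def piOne (N d : ℕ) : ℕ := ((Icc 1 N).filter fun p => p.Prime ∧ p ≡ 1 [MOD d]).card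

/-- `θ (N; d, 1)`. -/
def thetaOne (N d : ℕ) : ℝ :=
  ∑ p ∈ (Icc 1 N).filter (fun p : ℕ => p.Prime ∧ p ≡ 1 [MOD d]), Real.log (p : ℕ)

theorem piOne_le_div (N d : ℕ) : piOne N d ≤ N / d := by
  rw [piOne, ← Nat.Ioc_filter_dvd_card_eq_div N d]
  refine card_le_card_of_injOn (fun p => p - 1) (fun p hp => ?_) fun p hp q hq h => ?_
  · simp only [mem_coe, mem_filter, mem_Icc] at hp
    simp only [mem_coe, mem_filter, mem_Ioc]
    have := hp.2.1.two_le
    exact ⟨⟨by omega, by omega⟩, (Nat.modEq_iff_dvd' hp.1.1).1 hp.2.2.symm⟩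
  · simp only [mem_coe, mem_filter, mem_Icc] at hp hq
    simp only at h
    omega

theorem piOne_le (N d : ℕ) : (piOne N d : ℝ) ≤ (N : ℝ) / d :=
  (Nat.cast_le.2 (piOne_le_div N d)).trans Nat.cast_div_le

theorem piOne_brunTitchmarsh {N d : ℕ} (hd : 0 < d) (hdN : d < N) :
    (piOne N d : ℝ) ≤ 24 * N / ((d.totient : ℕ) * Real.log ((N : ℝ) / d)) :=
  brunTitchmarsh hd hdN

theorem thetaOne_le {N d : ℕ} : thetaOne N d ≤ piOne N d * Real.log N := by
  refine (sum_le_card_nsmul _ _ (Real.log N) fun p hp => ?_).trans (le_of_eq (nsmul_eq_mul _ _))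
  rw [mem_filter, mem_Icc] at hp
  exact Real.log_le_log (Nat.cast_pos.2 hp.1.1) (Nat.cast_le.2 hp.1.2)

theorem piOne_le_theta {N d : ℕ} (hN : 1 ≤ N) {η : ℝ} (_hη : η < 1) (hη0 : 0 ≤ η) :
    (1 - η) * Real.log N * piOne N d ≤
      thetaOne N d + Real.log N * ((N : ℝ) ^ (1 - η) / d) := by
  have hN0 : (0 : ℝ) < N := Nat.cast_pos.2 hN
  have hlog := Real.log_natCast_nonneg N
  obtain ⟨M, hM⟩ : ∃ M, M = ⌊(N : ℝ) ^ (1 - η)⌋₊ := ⟨_, rfl⟩
  obtain ⟨S, hS⟩ : ∃ S, S = (Icc 1 N).filter (fun p : ℕ => p.Prime ∧ p ≡ 1 [MOD d]) := ⟨_, rfl⟩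
  have hsplit : (piOne N d : ℝ) =
      (S.filter (· ≤ M)).card + (S.filter fun p => ¬ p ≤ M).card := by
    rw [← Nat.cast_add, card_filter_add_card_filter_not, piOne, hS]
  rw [hsplit, mul_add, add_comm]
  refine add_le_add ?_ ?_
  · rw [thetaOne, ← hS]
    refine le_trans ?_ (sum_le_sum_of_subset_of_nonneg (filter_subset (fun p => ¬ p ≤ M) S)
      fun p _ _ => Real.log_natCast_nonneg p)
    refine le_trans (le_of_eq ?_) (card_nsmul_le_sum (S.filter fun p => ¬ p ≤ M)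
      (fun p : ℕ => Real.log (p : ℕ)) ((1 - η) * Real.log N) fun p hp => ?_)
    · rw [nsmul_eq_mul, mul_comm]
    · rw [mem_filter, not_le, hM] at hp
      rw [← Real.log_rpow hN0]
      exact Real.log_le_log (Real.rpow_pos_of_pos hN0 _) (Nat.lt_of_floor_lt hp.2).le
  · refine le_trans (mul_le_mul (mul_le_of_le_one_left hlog (by linarith)) (le_trans
      (Nat.cast_le.2 (card_le_card (t := (Icc 1 M).filter fun p => p.Prime ∧ p ≡ 1 [MOD d])
        fun p hp => ?_)) (piOne_le M d)) (Nat.cast_nonneg _) hlog) ?_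
    · rw [mem_filter, hS, mem_filter, mem_Icc] at hp
      rw [mem_filter, mem_Icc]
      exact ⟨⟨hp.1.1.1, hp.2⟩, hp.1.2⟩
    · exact mul_le_mul_of_nonneg_left (div_le_div_of_nonneg_right
        (hM ▸ Nat.floor_le (Real.rpow_nonneg hN0.le _)) (Nat.cast_nonneg d)) hlog

/-- `⌊N ^ θ / (log N) ^ B⌋`. -/
def cut (θ : ℝ) (B N : ℕ) : ℕ := ⌊(N : ℝ) ^ θ / Real.log N ^ B⌋₊

theorem tendsto_log_log_div :
    Tendsto (fun N : ℕ => Real.log (Real.log N) / Real.log N) atTop (𝓝 0) :=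
  (Real.isLittleO_log_id_atTop.tendsto_div_nhds_zero).comp
    (Real.tendsto_log_atTop.comp tendsto_natCast_atTop_atTop)

theorem eventually_cut {θ : ℝ} (hθ : 0 < θ) (B : ℕ) :
    ∀ᶠ N : ℕ in atTop, 1 ≤ cut θ B N ∧
      (cut θ B N : ℝ) ≤ (N : ℝ) ^ θ / Real.log N ^ B ∧
      |Real.log (cut θ B N) - (θ * Real.log N - B * Real.log (Real.log N))| ≤ 1 := by
  have hlog : Tendsto (fun N : ℕ => Real.log N) atTop atTop :=
    Real.tendsto_log_atTop.comp tendsto_natCast_atTop_atTop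
  have h1 : Tendsto (fun N : ℕ => θ * Real.log N - B * Real.log (Real.log N)) atTop atTop := by
    have h : Tendsto (fun N : ℕ => θ - B * (Real.log (Real.log N) / Real.log N)) atTop (𝓝 θ) := by
      simpa using tendsto_const_nhds.sub (tendsto_log_log_div.const_mul (B : ℝ))
    refine (h.pos_mul_atTop hθ hlog).congr' ?_
    filter_upwards [hlog.eventually_gt_atTop 0] with N hN
    field_simp
  filter_upwards [h1.eventually_ge_atTop 1, hlog.eventually_gt_atTop 0,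
    eventually_gt_atTop 0] with N hN hl hN0
  have hN0' : (0 : ℝ) < N := Nat.cast_pos.2 hN0
  obtain ⟨u, hu⟩ : ∃ u, u = (N : ℝ) ^ θ / Real.log N ^ B := ⟨_, rfl⟩
  have hu0 : 0 < u := hu ▸ div_pos (Real.rpow_pos_of_pos hN0' _) (pow_pos hl B)
  have hlu : Real.log u = θ * Real.log N - B * Real.log (Real.log N) := by
    rw [hu, Real.log_div (Real.rpow_pos_of_pos hN0' _).ne' (pow_pos hl B).ne',
      Real.log_rpow hN0', Real.log_pow]
  rw [← hlu] at hN ⊢
  have hu2 : 2 ≤ u := by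
    have := Real.log_le_sub_one_of_pos hu0
    linarith
  rw [cut, ← hu]
  have h2 := Nat.lt_floor_add_one u
  have h3 := Nat.floor_le hu0.le
  have h4 : 1 ≤ ⌊u⌋₊ := Nat.le_floor (by push_cast; linarith)
  have h5 : (1 : ℝ) ≤ ⌊u⌋₊ := Nat.one_le_cast.2 h4
  refine ⟨h4, h3, ?_⟩
  have h6 := Real.log_le_log (by linarith) h3
  have h7 := Real.log_le_log hu0 (show u ≤ 2 * ⌊u⌋₊ by linarith)
  rw [Real.log_mul two_ne_zero (by linarith)] at h7
  rw [abs_le]
  constructor <;> linarith [Real.log_two_lt_d9]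

theorem tendsto_log_cut {θ : ℝ} (hθ : 0 < θ) (B : ℕ) :
    Tendsto (fun N : ℕ => Real.log (cut θ B N) / Real.log N) atTop (𝓝 θ) := by
  have hlog : Tendsto (fun N : ℕ => Real.log N) atTop atTop :=
    Real.tendsto_log_atTop.comp tendsto_natCast_atTop_atTop
  have h0 : Tendsto (fun N : ℕ => Real.log (cut θ B N) / Real.log N -
      (θ - B * (Real.log (Real.log N) / Real.log N))) atTop (𝓝 0) := by
    refine squeeze_zero_norm' ?_ (tendsto_const_nhds (x := (1 : ℝ)) |>.div_atTop hlog)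
    filter_upwards [eventually_cut hθ B, hlog.eventually_gt_atTop 0] with N hN hl
    rw [Real.norm_eq_abs, show Real.log (cut θ B N) / Real.log N -
        (θ - B * (Real.log (Real.log N) / Real.log N)) =
      (Real.log (cut θ B N) - (θ * Real.log N - B * Real.log (Real.log N))) / Real.log N by
        field_simp, abs_div, abs_of_pos hl]
    exact div_le_div_of_nonneg_right hN.2.2 hl.le
  have h : Tendsto (fun N : ℕ => θ - B * (Real.log (Real.log N) / Real.log N)) atTop (𝓝 θ) := by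
    simpa using tendsto_const_nhds.sub (tendsto_log_log_div.const_mul (B : ℝ))
  simpa using h0.add h

theorem tendsto_cut {θ : ℝ} (hθ : 0 < θ) (B : ℕ) :
    Tendsto (fun N => cut θ B N) atTop atTop := by
  have h : Tendsto (fun N : ℕ => Real.log (cut θ B N)) atTop atTop := by
    refine ((tendsto_log_cut hθ B).pos_mul_atTop hθ
      (Real.tendsto_log_atTop.comp tendsto_natCast_atTop_atTop)).congr' ?_
    filter_upwards [eventually_gt_atTop 1] with N hN
    simp only [Function.comp_apply]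
    rw [div_mul_cancel₀ _ (Real.log_pos (Nat.one_lt_cast.2 hN)).ne']
  rw [← tendsto_natCast_atTop_iff (R := ℝ)]
  refine tendsto_atTop_mono (fun N => ?_) h
  exact Real.log_le_self (Nat.cast_nonneg _)

theorem tendsto_totient_cut {θ : ℝ} (hθ : 0 < θ) (B : ℕ) :
    Tendsto (fun N : ℕ => (∑ d ∈ Icc 1 (cut θ B N), ((d.totient : ℕ) : ℝ)⁻¹) / Real.log N)
      atTop (𝓝 (titchmarshConst * θ)) := by
  refine ((tendsto_sum_inv_totient.comp (tendsto_cut hθ B)).mul (tendsto_log_cut hθ B)).congr' ?_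
  filter_upwards [(tendsto_cut hθ B).eventually_gt_atTop 1] with N hN
  simp only [Function.comp_apply]
  have : Real.log (cut θ B N) ≠ 0 := (Real.log_pos (Nat.one_lt_cast.2 hN)).ne'
  field_simp

theorem sum_vonMangoldt_mul_le (n : ℕ) {F : ℕ → ℝ} (hF : ∀ m, 0 ≤ F m) :
    ∑ d ∈ Ioc 0 n, Λ d * F d ≤
      ∑ p ∈ (Icc 1 n).filter Nat.Prime, ∑ k ∈ Icc 1 n, Real.log (p : ℕ) * F (p ^ k) := by
  classical
  rw [← sum_product']
  refine le_trans ?_ (sum_image_le_of_nonneg (g := fun x : ℕ × ℕ => x.1 ^ x.2)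
    (f := fun d => Λ d * F d)
    (fun d _ => mul_nonneg ArithmeticFunction.vonMangoldt_nonneg (hF d)) |>.trans
      (le_of_eq (sum_congr rfl fun x hx => ?_)))
  · rw [← sum_filter_ne_zero (s := Ioc 0 n)]
    refine sum_le_sum_of_subset_of_nonneg (fun d hd => ?_) fun d _ _ =>
      mul_nonneg ArithmeticFunction.vonMangoldt_nonneg (hF d)
    rw [mem_filter, mem_Ioc] at hd
    obtain ⟨p, k, hp, hk, rfl⟩ := (isPrimePow_nat_iff d).1
      (ArithmeticFunction.vonMangoldt_ne_zero_iff.1 (left_ne_zero_of_mul hd.2))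
    refine mem_image.2 ⟨(p, k), mem_product.2 ⟨mem_filter.2 ⟨mem_Icc.2 ⟨hp.one_le, ?_⟩, hp⟩,
      mem_Icc.2 ⟨hk, ?_⟩⟩, rfl⟩
    · exact (Nat.le_self_pow hk.ne' p).trans hd.1.2
    · exact ((Nat.lt_pow_self hp.one_lt).le).trans hd.1.2
  · rw [mem_product, mem_filter, mem_Icc, mem_Icc] at hx
    rw [ArithmeticFunction.vonMangoldt_apply_pow (by omega),
      ArithmeticFunction.vonMangoldt_apply_prime hx.1.2]

theorem exists_vonMangoldt_totient_le : ∃ K : ℝ, ∀ n : ℕ,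
    ∑ d ∈ Ioc 0 n, Λ d * (((d.totient : ℕ) : ℝ)⁻¹ - ((d : ℕ) : ℝ)⁻¹) ≤ K := by
  have hs : Summable fun m : ℕ => 16 * (1 / (m : ℝ) ^ ((7 : ℝ) / 4)) :=
    (Real.summable_one_div_nat_rpow.2 (by norm_num)).mul_left 16
  refine ⟨∑' m : ℕ, 16 * (1 / (m : ℝ) ^ ((7 : ℝ) / 4)), fun n => ?_⟩
  have hF : ∀ m : ℕ, 0 ≤ ((m.totient : ℕ) : ℝ)⁻¹ - ((m : ℕ) : ℝ)⁻¹ := fun m => by
    rcases Nat.eq_zero_or_pos m with rfl | hm
    · simp
    · exact sub_nonneg.2 (inv_anti₀ (Nat.cast_pos.2 (Nat.totient_pos.2 hm))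
        (Nat.cast_le.2 (Nat.totient_le m)))
  refine (sum_vonMangoldt_mul_le n hF).trans ((sum_le_sum fun p hp => ?_).trans
    (hs.sum_le_tsum _ fun m _ => by positivity))
  rw [mem_filter] at hp
  have hp2 : (2 : ℝ) ≤ p := Nat.ofNat_le_cast.2 hp.2.two_le
  have hlog := Real.log_natCast_nonneg p
  have e : ∀ k ∈ Icc 1 n, Real.log (p : ℕ) *
      ((((p ^ k).totient : ℕ) : ℝ)⁻¹ - (((p ^ k : ℕ)) : ℝ)⁻¹) =
      Real.log p / ((p : ℝ) - 1) * ((p : ℝ)⁻¹) ^ k := by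
    intro k hk
    obtain ⟨j, rfl⟩ : ∃ j, k = j + 1 := ⟨k - 1, by rw [mem_Icc] at hk; omega⟩
    rw [Nat.totient_prime_pow_succ hp.2, Nat.cast_mul, Nat.cast_pow, Nat.cast_pow,
      Nat.cast_sub hp.2.one_le, Nat.cast_one, inv_pow, pow_succ]
    have : (p : ℝ) - 1 ≠ 0 := by linarith
    have : (p : ℝ) ^ j ≠ 0 := pow_ne_zero _ (by linarith)
    field_simp
    ring
  rw [sum_congr rfl e, ← mul_sum]
  have hgeo : ∑ k ∈ Icc 1 n, ((p : ℝ)⁻¹) ^ k ≤ 1 / ((p : ℝ) - 1) := by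
    have hr : (p : ℝ)⁻¹ < 1 := inv_lt_one_of_one_lt₀ (by linarith)
    rw [← Finset.Ico_add_one_right_eq_Icc]
    refine (geom_sum_Ico_le_of_lt_one (by positivity) hr).trans (le_of_eq ?_)
    rw [pow_one]
    have : (p : ℝ) - 1 ≠ 0 := by linarith
    field_simp
  refine (mul_le_mul_of_nonneg_left hgeo (div_nonneg hlog (by linarith))).trans ?_
  have h1 := Real.log_le_rpow_div (show (0 : ℝ) ≤ p by linarith) (ε := 1 / 4) (by norm_num)
  rw [div_mul_div_comm, mul_one, mul_one_div, div_le_div_iff₀ (by nlinarith)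
    (Real.rpow_pos_of_pos (by linarith) _)]
  calc Real.log p * (p : ℝ) ^ ((7 : ℝ) / 4)
      ≤ (p : ℝ) ^ ((1 : ℝ) / 4) / (1 / 4) * (p : ℝ) ^ ((7 : ℝ) / 4) :=
        mul_le_mul_of_nonneg_right h1 (Real.rpow_nonneg (by linarith) _)
    _ = 4 * (p : ℝ) ^ 2 := by
        rw [div_mul_eq_mul_div, ← Real.rpow_add (by linarith), ← Real.rpow_natCast]
        norm_num
        ring
    _ ≤ _ := by nlinarith

theorem tendsto_vonMangoldt_cut {θ : ℝ} (hθ : 0 < θ) (B : ℕ) :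
    Tendsto (fun N : ℕ =>
      (∑ d ∈ Ioc 0 (cut θ B N), Λ d / (d.totient : ℕ)) / Real.log N) atTop (𝓝 θ) := by
  obtain ⟨K, hK⟩ := exists_vonMangoldt_totient_le
  have hlog : Tendsto (fun N : ℕ => Real.log N) atTop atTop :=
    Real.tendsto_log_atTop.comp tendsto_natCast_atTop_atTop
  have h0 : Tendsto (fun N : ℕ => (∑ d ∈ Ioc 0 (cut θ B N), Λ d / (d.totient : ℕ)) / Real.log N -
      Real.log (cut θ B N) / Real.log N) atTop (𝓝 0) := by
    refine squeeze_zero_norm' ?_ (tendsto_const_nhds (x := 6 + |K|) |>.div_atTop hlog)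
    filter_upwards [eventually_cut hθ B, hlog.eventually_gt_atTop 0] with N hN hl
    rw [Real.norm_eq_abs, ← sub_div, abs_div, abs_of_pos hl]
    refine div_le_div_of_nonneg_right ?_ hl.le
    have h1 := hK (cut θ B N)
    simp only [mul_sub, ← div_eq_mul_inv, sum_sub_distrib] at h1
    have h2 : ∑ d ∈ Ioc 0 (cut θ B N), Λ d / d ≤
        ∑ d ∈ Ioc 0 (cut θ B N), Λ d / (d.totient : ℕ) := sum_le_sum fun d hd =>
      div_le_div_of_nonneg_left ArithmeticFunction.vonMangoldt_nonneg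
        (Nat.cast_pos.2 (Nat.totient_pos.2 (mem_Ioc.1 hd).1)) (Nat.cast_le.2 (Nat.totient_le d))
    have h3 := abs_le.1 (abs_sum_vonMangoldt_div_sub_le hN.1)
    have := le_abs_self K
    rw [abs_le]
    constructor <;> linarith [abs_nonneg K]
  simpa using h0.add (tendsto_log_cut hθ B)

/-- **Bombieri-Vinogradov for the class `1`.** -/
theorem exists_sum_abs_thetaOne : ∃ (B : ℕ) (C : ℝ), ∀ N : ℕ, 3 ≤ N → ∀ Q : ℕ,
    (Q : ℝ) ≤ Real.sqrt N / Real.log N ^ B →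
      ∑ d ∈ Icc 1 Q, |thetaOne N d - N / (d.totient : ℕ)| ≤ C * ((N : ℝ) / Real.log N ^ 2) := by
  obtain ⟨B, C, -, h⟩ := BombieriVinogradov.Summary.bombieri_vinogradov_theta 2
  refine ⟨B, C, fun N hN Q hQ => ?_⟩
  exact h N hN Q hQ (fun _ => N) (fun _ => 1) fun q _ => ⟨le_rfl, Nat.coprime_one_left q⟩

theorem cut_half_zero (N : ℕ) : cut (1 / 2) 0 N = Nat.sqrt N := by
  rw [cut, pow_zero, div_one, ← Real.sqrt_eq_rpow, Real.nat_floor_real_sqrt_eq_nat_sqrt]

end FA.PrimesMinusOne
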