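import Fermat.Agent.PrimesMinusOne.Ranges

/-!
# The divisor problem of Titchmarsh

`∑_{p ≤ N} τ (p - 1) ∼ c N`: twice the moduli `d ≤ √N`, the ones `≤ √N / (log N) ^ B` by
Bombieri and Vinogradov and the rest by Brun and Titchmarsh.
-/

set_option autoImplicit false

noncomputable section

namespace FA.PrimesMinusOne

open Finset Filter
open scoped Nat Topology

theorem card_divisors_add {n : ℕ} (hn : 0 < n) :
    n.divisors.card + (n.divisors.filter fun d => d * d = n).card =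
      2 * (n.divisors.filter fun d => d * d ≤ n).card := by
  have h1 : (n.divisors.filter fun d => n < d * d).card =
      (n.divisors.filter fun d => d * d < n).card := by
    refine card_nbij' (fun d => n / d) (fun d => n / d) ?_ ?_ ?_ ?_
    · intro d hd
      simp only [mem_coe, mem_filter, Nat.mem_divisors] at hd ⊢
      obtain ⟨⟨⟨e, rfl⟩, h0⟩, h⟩ := hd
      rw [Nat.mul_div_cancel_left e (Nat.pos_of_mul_pos_right hn)]
      refine ⟨⟨dvd_mul_left e d, h0⟩, ?_⟩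
      exact Nat.mul_lt_mul_of_pos_right (Nat.lt_of_mul_lt_mul_left h) (Nat.pos_of_mul_pos_left hn)
    · intro d hd
      simp only [mem_coe, mem_filter, Nat.mem_divisors] at hd ⊢
      obtain ⟨⟨⟨e, rfl⟩, h0⟩, h⟩ := hd
      rw [Nat.mul_div_cancel_left e (Nat.pos_of_mul_pos_right hn)]
      refine ⟨⟨dvd_mul_left e d, h0⟩, ?_⟩
      exact Nat.mul_lt_mul_of_pos_right (Nat.lt_of_mul_lt_mul_left h) (Nat.pos_of_mul_pos_left hn)
    · intro d hd
      simp only [mem_coe, mem_filter, Nat.mem_divisors] at hd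
      exact Nat.div_div_self hd.1.1 hd.1.2
    · intro d hd
      simp only [mem_coe, mem_filter, Nat.mem_divisors] at hd
      exact Nat.div_div_self hd.1.1 hd.1.2
  have h2 : (n.divisors.filter fun d => d * d ≤ n).card =
      (n.divisors.filter fun d => d * d < n).card +
        (n.divisors.filter fun d => d * d = n).card := by
    rw [← card_union_of_disjoint (disjoint_filter.2 fun d _ h => h.ne), ← filter_or]
    exact congrArg card (filter_congr fun d _ => le_iff_lt_or_eq)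
  have h3 : n.divisors.card = (n.divisors.filter fun d => d * d ≤ n).card +
      (n.divisors.filter fun d => n < d * d).card := by
    rw [← card_filter_add_card_filter_not (s := n.divisors) fun d => d * d ≤ n]
    simp only [not_le]
  omega

/-- `∑_{p ≤ N} τ (p - 1)`. -/
def divisorSum (N : ℕ) : ℕ := ∑ p ∈ (Icc 1 N).filter Nat.Prime, (p - 1).divisors.card

theorem divisorSum_eq (N : ℕ) :
    ∃ Z : ℕ, Z ≤ Nat.sqrt N ∧
      divisorSum N + Z + 2 * ∑ d ∈ Icc 1 (Nat.sqrt N), piOne (d * d) d =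
        2 * ∑ d ∈ Icc 1 (Nat.sqrt N), piOne N d := by
  classical
  obtain ⟨P, hP⟩ : ∃ P, P = (Icc 1 N).filter Nat.Prime := ⟨_, rfl⟩
  have hp : ∀ p ∈ P, 0 < p - 1 ∧ p - 1 < N := fun p hp => by
    rw [hP, mem_filter, mem_Icc] at hp
    have := hp.2.two_le
    omega
  have hdiv : ∀ p ∈ P, ∀ q : ℕ → Prop, ∀ [DecidablePred q], (∀ d, q d → d * d ≤ p - 1) →
      ((p - 1).divisors.filter q).card =
        ((Icc 1 (Nat.sqrt N)).filter fun d => d ∣ p - 1 ∧ q d).card := by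
    intro p hpP q _ hq
    obtain ⟨h1, h2⟩ := hp p hpP
    congr 1
    ext d
    simp only [mem_filter, Nat.mem_divisors, mem_Icc]
    exact ⟨fun h => ⟨⟨Nat.pos_of_dvd_of_pos h.1.1 h1,
      Nat.le_sqrt.2 ((hq d h.2).trans h2.le)⟩, h.1.1, h.2⟩, fun h => ⟨⟨h.2.1, h1.ne'⟩, h.2.2⟩⟩
  obtain ⟨Z, hZ⟩ : ∃ Z, Z = ∑ p ∈ P, ((p - 1).divisors.filter fun d => d * d = p - 1).card :=
    ⟨_, rfl⟩
  refine ⟨Z, ?_, ?_⟩
  · rw [hZ, sum_congr rfl fun p hpP => hdiv p hpP (fun d => d * d = p - 1) fun d h => h.le]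
    simp only [card_filter]
    rw [sum_comm]
    refine (sum_le_card_nsmul _ _ 1 fun d _ => ?_).trans (by simp)
    rw [← card_filter, card_le_one]
    intro p hp' q hq'
    simp only [mem_filter] at hp' hq'
    have := (hp p hp'.1).1
    have := (hp q hq'.1).1
    have := hp'.2.2
    have := hq'.2.2
    omega
  · rw [divisorSum, ← hP, hZ, ← sum_add_distrib, sum_congr rfl fun p hpP =>
      card_divisors_add (hp p hpP).1, ← mul_sum, ← mul_add]
    congr 1
    rw [sum_congr rfl fun p hpP => hdiv p hpP (fun d => d * d ≤ p - 1) fun d h => h]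
    simp only [card_filter]
    rw [sum_comm, ← sum_add_distrib]
    refine sum_congr rfl fun d hd => ?_
    rw [mem_Icc] at hd
    have hdN : d * d ≤ N := Nat.le_sqrt.1 hd.2
    rw [← card_filter, piOne, piOne,
      ← card_filter_add_card_filter_not (s := (Icc 1 N).filter _) fun p => p ≤ d * d, add_comm]
    congr 2
    · ext p
      simp only [mem_filter, mem_Icc]
      exact ⟨fun h => ⟨⟨⟨h.1.1, h.1.2.trans hdN⟩, h.2⟩, h.1.2⟩,
        fun h => ⟨⟨h.1.1.1, h.2⟩, h.1.2⟩⟩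
    · ext p
      simp only [hP, mem_filter, mem_Icc, not_le]
      constructor
      · rintro ⟨⟨⟨h1, h2⟩, hpr⟩, hdvd, hle⟩
        exact ⟨⟨⟨h1, h2⟩, hpr, ((Nat.modEq_iff_dvd' h1).2 hdvd).symm⟩, by
          have := hpr.two_le; omega⟩
      · rintro ⟨⟨⟨h1, h2⟩, hpr, hmod⟩, hlt⟩
        exact ⟨⟨⟨h1, h2⟩, hpr⟩, (Nat.modEq_iff_dvd' h1).1 hmod.symm, by omega⟩

theorem tendsto_piOne_sq :
    Tendsto (fun N : ℕ => ((∑ d ∈ Icc 1 (Nat.sqrt N), piOne (d * d) d : ℕ) : ℝ) / N) atTop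
      (𝓝 0) := by
  have hup : Tendsto (fun N : ℕ => (Real.log N)⁻¹ ^ 2 + 96 *
      ((∑ d ∈ Ioc (cut (1 / 2) 1 N) (cut (1 / 2) 0 N), ((d.totient : ℕ) : ℝ)⁻¹) / Real.log N))
      atTop (𝓝 0) := by
    simpa using (tendsto_log_inv.pow 2).add
      ((tendsto_totient_range (show (0 : ℝ) < 1 / 2 by norm_num) le_rfl
        (zero_le (a := 1))).const_mul 96)
  refine squeeze_zero' (Eventually.of_forall fun N => by positivity) ?_ hup
  filter_upwards [eventually_ge_atTop 16,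
    (tendsto_log_cut (show (0 : ℝ) < 1 / 2 by norm_num) 1).eventually
      (eventually_ge_nhds (show (1 / 4 : ℝ) < 1 / 2 by norm_num))] with N hN hcut
  have hN3 : 3 ≤ N := by omega
  have hN0 : (0 : ℝ) < N := Nat.cast_pos.2 (by omega)
  have hL := one_le_log_of_three_le hN3
  rw [← cut_half_zero, div_le_iff₀ hN0]
  rw [le_div_iff₀ (zero_lt_one.trans_le hL)] at hcut
  obtain ⟨y, hy⟩ : ∃ y, y = cut (1 / 2) 1 N := ⟨_, rfl⟩
  have hyY : y ≤ cut (1 / 2) 0 N := hy ▸ cut_le_cut le_rfl (zero_le (a := 1)) hN3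
  push_cast
  rw [← sum_Ioc_add_eq_Icc hyY, add_mul]
  refine add_le_add ?_ ?_
  · refine (sum_le_card_nsmul _ _ (y : ℝ) fun d hd => ?_).trans ?_
    · rw [mem_Icc] at hd
      refine Nat.cast_le.2 ((piOne_le_div _ _).trans ?_)
      rw [Nat.mul_div_cancel _ hd.1]
      exact hd.2
    · rw [Nat.card_Icc, Nat.add_sub_cancel, nsmul_eq_mul]
      have h1 := cut_le_sqrt_div (θ := 1 / 2) 1 le_rfl hN3
      rw [← hy, pow_one] at h1
      refine (mul_self_le_mul_self (Nat.cast_nonneg y) h1).trans (le_of_eq ?_)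
      rw [div_mul_div_comm, Real.mul_self_sqrt hN0.le]
      ring
  · rw [← hy, mul_assoc, mul_comm (_ / _) (N : ℝ), ← mul_assoc, mul_div_assoc', mul_sum, sum_div]
    refine sum_le_sum fun d hd => ?_
    rw [mem_Ioc] at hd
    have hdN : d * d ≤ N := Nat.le_sqrt.1 (cut_half_zero N ▸ hd.2)
    have hy1 : 1 ≤ y := by
      by_contra h
      rw [← hy, show y = 0 by omega] at hcut
      simp only [Nat.cast_zero, Real.log_zero] at hcut
      linarith
    have hd2 : 2 ≤ d := by omega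
    have hlogd : Real.log N / 4 ≤ Real.log d := by
      refine le_trans (le_trans (le_of_eq (by ring)) hcut) (hy ▸ ?_)
      exact Real.log_le_log (Nat.cast_pos.2 (by omega)) (Nat.cast_le.2 (by omega))
    refine (piOne_brunTitchmarsh (by omega) (by
      calc d = d * 1 := (mul_one d).symm
        _ < d * d := Nat.mul_lt_mul_of_pos_left (by omega) (by omega))).trans ?_
    rw [Nat.cast_mul, mul_div_assoc ((d : ℝ)) (d : ℝ) (d : ℝ),
      div_self (Nat.cast_ne_zero.2 (by omega)), mul_one]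
    refine (div_le_div₀ (by positivity) (mul_le_mul_of_nonneg_left
      (show (d : ℝ) * d ≤ N by exact_mod_cast hdN) (by norm_num))
      (mul_pos (Nat.cast_pos.2 (Nat.totient_pos.2 (by omega))) (by linarith))
      (mul_le_mul_of_nonneg_left hlogd (Nat.cast_nonneg _))).trans (le_of_eq ?_)
    ring
where
  sum_Ioc_add_eq_Icc {f : ℕ → ℝ} {Q M : ℕ} (h : Q ≤ M) :
      ∑ d ∈ Icc 1 Q, f d + ∑ d ∈ Ioc Q M, f d = ∑ d ∈ Icc 1 M, f d := by
    rw [sum_Ioc_eq_sub f h]
    ring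

theorem tendsto_piOne_sum :
    Tendsto (fun N : ℕ => ((∑ d ∈ Icc 1 (Nat.sqrt N), piOne N d : ℕ) : ℝ) / N) atTop
      (𝓝 (titchmarshConst / 2)) := by
  obtain ⟨B, C, hBV⟩ := exists_sum_abs_thetaOne
  obtain ⟨T, hT⟩ : ∃ T : ℕ → ℝ, T = fun N =>
      (∑ d ∈ Icc 1 (cut (1 / 2) B N), ((d.totient : ℕ) : ℝ)⁻¹) / Real.log N := ⟨_, rfl⟩
  obtain ⟨R, hR⟩ : ∃ R : ℕ → ℝ, R = fun N => (∑ d ∈ Ioc (cut (1 / 2) B N) (cut (1 / 2) 0 N),
      ((d.totient : ℕ) : ℝ)⁻¹) / Real.log N := ⟨_, rfl⟩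
  have hT' : Tendsto T atTop (𝓝 (titchmarshConst / 2)) := by
    rw [hT, show titchmarshConst / 2 = titchmarshConst * (1 / 2) by ring]
    exact tendsto_totient_cut (by norm_num) B
  have hR' : Tendsto R atTop (𝓝 0) := by
    rw [hR]
    simpa using tendsto_totient_range (show (0 : ℝ) < 1 / 2 by norm_num) le_rfl (zero_le (a := B))
  have hEC : Tendsto (fun N : ℕ => C * (Real.log N)⁻¹ ^ 3) atTop (𝓝 0) := by
    simpa using (tendsto_log_inv.pow 3).const_mul C
  have hlow : ∀ᶠ N : ℕ in atTop, T N - C * (Real.log N)⁻¹ ^ 3 ≤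
      ((∑ d ∈ Icc 1 (Nat.sqrt N), piOne N d : ℕ) : ℝ) / N := by
    filter_upwards [eventually_ge_atTop 3] with N hN
    have hN0 : (0 : ℝ) < N := Nat.cast_pos.2 (by omega)
    have hL := one_le_log_of_three_le hN
    obtain ⟨Q, hQ⟩ : ∃ Q, Q = cut (1 / 2) B N := ⟨_, rfl⟩
    have h1 := hBV N hN Q (hQ ▸ cut_le_sqrt_div B le_rfl hN)
    have h2 : ∑ d ∈ Icc 1 Q, thetaOne N d ≤
        Real.log N * ((∑ d ∈ Icc 1 (Nat.sqrt N), piOne N d : ℕ) : ℝ) := by
      push_cast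
      rw [mul_sum]
      refine (sum_le_sum fun d _ => ?_).trans (sum_le_sum_of_subset_of_nonneg
        (Icc_subset_Icc_right ?_) fun d _ _ => mul_nonneg (by linarith) (Nat.cast_nonneg _))
      · exact thetaOne_le.trans (le_of_eq (mul_comm _ _))
      · rw [hQ, ← cut_half_zero]
        exact cut_le_cut le_rfl (Nat.zero_le B) hN
    have h3 : (N : ℝ) * ∑ d ∈ Icc 1 Q, ((d.totient : ℕ) : ℝ)⁻¹ - C * ((N : ℝ) / Real.log N ^ 2) ≤
        ∑ d ∈ Icc 1 Q, thetaOne N d := by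
      rw [mul_sum, sub_le_iff_le_add', ← sub_le_iff_le_add, ← sum_sub_distrib]
      refine le_trans (sum_le_sum fun d _ => ?_) h1
      rw [← div_eq_mul_inv, abs_sub_comm]
      exact le_abs_self _
    rw [le_div_iff₀ hN0, hT]
    simp only [← hQ]
    refine le_of_mul_le_mul_left ?_ (zero_lt_one.trans_le hL)
    refine le_trans (le_of_eq ?_) (h3.trans h2)
    have : Real.log N ≠ 0 := by linarith
    field_simp
  have hup : ∀ η : ℝ, 0 < η → η < 1 → ∀ᶠ N : ℕ in atTop,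
      ((∑ d ∈ Icc 1 (Nat.sqrt N), piOne N d : ℕ) : ℝ) / N ≤
        (T N + C * (Real.log N)⁻¹ ^ 3 + 2 * (Real.log N ^ 1 * (N : ℝ) ^ (-η))) / (1 - η) +
          48 * R N := by
    intro η hη0 hη
    filter_upwards [eventually_ge_atTop 3] with N hN
    have hN0 : (0 : ℝ) < N := Nat.cast_pos.2 (by omega)
    have hL := one_le_log_of_three_le hN
    obtain ⟨Q, hQ⟩ : ∃ Q, Q = cut (1 / 2) B N := ⟨_, rfl⟩
    have hQY : Q ≤ cut (1 / 2) 0 N := hQ ▸ cut_le_cut le_rfl (Nat.zero_le B) hN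
    have h1 := hBV N hN Q (hQ ▸ cut_le_sqrt_div B le_rfl hN)
    have h2 := sum_piOne_le_theta (V := 1) (w := fun _ => 1) hN hη0.le hη
      (fun _ _ => ⟨zero_le_one, le_rfl⟩) zero_le_one
      (hQ ▸ cut_le_self B (by norm_num) hN) h1
    have h3 := sum_piOne_range_le (Q := Q) (M := cut (1 / 2) 0 N) (θ := 1 / 2) hN (by norm_num)
      (by simpa [cut] using Nat.floor_le (Real.rpow_nonneg hN0.le ((1 : ℝ) / 2)))
      (w := fun _ => 1) fun _ => zero_le_one
    simp only [one_mul, mul_one,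
      show ∀ d : ℕ, (1 : ℝ) / (d.totient : ℕ) = ((d.totient : ℕ) : ℝ)⁻¹ from fun d => one_div _]
      at h2 h3
    rw [← cut_half_zero]
    push_cast
    rw [sum_Ioc_eq_sub _ hQY] at h3
    rw [hT, hR]
    simp only [← hQ]
    rw [div_le_iff₀ hN0, add_mul]
    have hrp : (N : ℝ) ^ (1 - η) = (N : ℝ) * (N : ℝ) ^ (-η) := by
      rw [sub_eq_add_neg, Real.rpow_one_add' hN0.le (by linarith)]
    rw [hrp] at h2
    obtain ⟨S, hS⟩ : ∃ S, S = ∑ d ∈ Icc 1 Q, (piOne N d : ℝ) := ⟨_, rfl⟩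
    obtain ⟨A, hA⟩ : ∃ A, A = ∑ d ∈ Icc 1 Q, ((d.totient : ℕ) : ℝ)⁻¹ := ⟨_, rfl⟩
    rw [← hA, ← hS] at h2
    rw [← hS] at h3
    rw [← hA]
    have hL' : Real.log N ≠ 0 := by linarith
    have h4 : S ≤ (A / Real.log N + C * (Real.log N)⁻¹ ^ 3 +
        2 * (Real.log N ^ 1 * (N : ℝ) ^ (-η))) / (1 - η) * N := by
      rw [div_mul_eq_mul_div, le_div_iff₀ (by linarith)]
      refine le_of_mul_le_mul_left ?_ (zero_lt_one.trans_le hL)
      refine le_trans (le_of_eq ?_) (h2.trans (le_of_eq ?_))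
      · ring
      · field_simp
    refine le_trans (le_of_eq (add_sub_cancel S _).symm) (add_le_add h4 (h3.trans (le_of_eq ?_)))
    ring
  rw [tendsto_order]
  refine ⟨fun a ha => ?_, fun b hb => ?_⟩
  · have h : Tendsto (fun N : ℕ => T N - C * (Real.log N)⁻¹ ^ 3) atTop
        (𝓝 (titchmarshConst / 2)) := by
      simpa using hT'.sub hEC
    filter_upwards [hlow, h.eventually (eventually_gt_nhds ha)] with N h1 h2
    exact h2.trans_le h1
  · obtain ⟨η, hη0, hη, hηb⟩ : ∃ η : ℝ, 0 < η ∧ η < 1 ∧ titchmarshConst / 2 / (1 - η) < b := by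
      have hc : ContinuousAt (fun η : ℝ => titchmarshConst / 2 / (1 - η)) 0 :=
        continuousAt_const.div (continuousAt_const.sub continuousAt_id) (by norm_num)
      have e1 := hc.eventually_lt continuousAt_const (by simpa using hb)
      have e2 : ∀ᶠ η in 𝓝 (0 : ℝ), η < 1 := eventually_lt_nhds (by norm_num)
      obtain ⟨η, h1, h2, h3⟩ := ((eventually_mem_nhdsWithin (a := (0 : ℝ)) (s := Set.Ioi 0)).and
        ((e2.and e1).filter_mono nhdsWithin_le_nhds)).exists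
      exact ⟨η, h1, h2, h3⟩
    have h : Tendsto (fun N : ℕ => (T N + C * (Real.log N)⁻¹ ^ 3 +
        2 * (Real.log N ^ 1 * (N : ℝ) ^ (-η))) / (1 - η) + 48 * R N) atTop
        (𝓝 (titchmarshConst / 2 / (1 - η))) := by
      simpa using (((hT'.add hEC).add ((tendsto_log_mul_rpow_neg hη0 1).const_mul 2)).div_const
        (1 - η)).add (hR'.const_mul 48)
    filter_upwards [hup η hη0 hη, h.eventually (eventually_lt_nhds hηb)] with N h1 h2
    exact h1.trans_lt h2

/-- **The theorem of Linnik on the divisor problem of Titchmarsh.** -/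
theorem tendsto_divisorSum :
    Tendsto (fun N : ℕ => (divisorSum N : ℝ) / N) atTop (𝓝 titchmarshConst) := by
  have hY : Tendsto (fun N : ℕ => ((Nat.sqrt N : ℕ) : ℝ) / N) atTop (𝓝 0) := by
    refine squeeze_zero' (Eventually.of_forall fun N => by positivity) ?_
      ((tendsto_rpow_neg_atTop (show (0 : ℝ) < 1 / 2 by norm_num)).comp
        tendsto_natCast_atTop_atTop)
    filter_upwards [eventually_gt_atTop 0] with N hN
    simp only [Function.comp_apply]
    have hN0 : (0 : ℝ) < N := Nat.cast_pos.2 hN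
    rw [div_le_iff₀ hN0, ← Real.rpow_add_one hN0.ne']
    norm_num
    rw [← cut_half_zero, cut, pow_zero, div_one]
    exact (Nat.floor_le (Real.rpow_nonneg hN0.le _)).trans (le_of_eq (by norm_num))
  have h : Tendsto (fun N : ℕ => 2 * (((∑ d ∈ Icc 1 (Nat.sqrt N), piOne N d : ℕ) : ℝ) / N) -
      2 * (((∑ d ∈ Icc 1 (Nat.sqrt N), piOne (d * d) d : ℕ) : ℝ) / N)) atTop
      (𝓝 titchmarshConst) := by
    simpa [mul_div_cancel₀] using (tendsto_piOne_sum.const_mul 2).sub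
      (tendsto_piOne_sq.const_mul 2)
  have key : ∀ N : ℕ, ∃ Z : ℝ, 0 ≤ Z ∧ Z ≤ (Nat.sqrt N : ℕ) ∧ (divisorSum N : ℝ) =
      2 * ((∑ d ∈ Icc 1 (Nat.sqrt N), piOne N d : ℕ) : ℝ) -
        2 * ((∑ d ∈ Icc 1 (Nat.sqrt N), piOne (d * d) d : ℕ) : ℝ) - Z := by
    intro N
    obtain ⟨Z, hZ1, hZ2⟩ := divisorSum_eq N
    refine ⟨Z, Nat.cast_nonneg Z, Nat.cast_le.2 hZ1, ?_⟩
    have h2 := congrArg (Nat.cast (R := ℝ)) hZ2
    push_cast at h2 ⊢
    linarith
  have hlow : Tendsto (fun N : ℕ =>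
      2 * (((∑ d ∈ Icc 1 (Nat.sqrt N), piOne N d : ℕ) : ℝ) / N) -
      2 * (((∑ d ∈ Icc 1 (Nat.sqrt N), piOne (d * d) d : ℕ) : ℝ) / N) -
      ((Nat.sqrt N : ℕ) : ℝ) / N) atTop (𝓝 titchmarshConst) := by
    simpa using h.sub hY
  refine tendsto_of_tendsto_of_tendsto_of_le_of_le hlow h (fun N => ?_) fun N => ?_ <;>
    obtain ⟨Z, hZ0, hZ1, hZ⟩ := key N <;>
    simp only [hZ, sub_div, mul_div_assoc]
  · exact sub_le_sub_left (div_le_div_of_nonneg_right hZ1 (Nat.cast_nonneg N)) _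
  · exact sub_le_self _ (div_nonneg hZ0 (Nat.cast_nonneg N))

end FA.PrimesMinusOne
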