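import Fermat.Agent.PrimesMinusOne.TotientSum
import Mathlib.NumberTheory.EulerProduct.DirichletLSeries

/-!
# The constant: `c ζ (6) = ζ (2) ζ (3)`
-/

set_option autoImplicit false

noncomputable section

namespace FA.PrimesMinusOne

open Finset

theorem divisorWeight_mul {m n : ℕ} (h : m.Coprime n) :
    divisorWeight (m * n) = divisorWeight m * divisorWeight n := by
  unfold divisorWeight
  by_cases hm : Squarefree m <;> by_cases hn : Squarefree n <;>
    simp only [Nat.squarefree_mul_iff, hm, hn, and_true, and_false, if_true, if_false,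
      mul_zero, zero_mul, Nat.totient_mul h]
  rw [if_pos h]
  push_cast
  rw [← mul_inv]
  congr 1
  ring

theorem tsum_divisorWeight_pow (p : Nat.Primes) :
    ∑' e : ℕ, divisorWeight ((p : ℕ) ^ e) = 1 + (((p : ℕ) : ℝ) * (((p : ℕ) : ℝ) - 1))⁻¹ := by
  rw [tsum_eq_sum (s := range 2)]
  · rw [sum_range_succ, sum_range_one, pow_zero, pow_one]
    unfold divisorWeight
    rw [if_pos squarefree_one, if_pos p.2.squarefree, Nat.totient_prime p.2,
      Nat.cast_sub p.2.one_le]
    simp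
  · intro e he
    rw [mem_range, not_lt] at he
    refine if_neg fun h => ?_
    exact p.2.ne_one (Nat.isUnit_iff.1 (h _ ((pow_two (p : ℕ)) ▸ pow_dvd_pow _ he)))

theorem euler_factor_eq {p : ℕ} (hp : 2 ≤ p) :
    ((1 + ((p : ℝ) * ((p : ℝ) - 1))⁻¹ : ℝ) : ℂ) * (1 - (p : ℂ) ^ (-(6 : ℂ)))⁻¹ =
      (1 - (p : ℂ) ^ (-(2 : ℂ)))⁻¹ * (1 - (p : ℂ) ^ (-(3 : ℂ)))⁻¹ := by
  have hcast : ∀ n : ℕ, (p : ℂ) ^ (-(n : ℂ)) = ((((p : ℝ) ^ n)⁻¹ : ℝ) : ℂ) := fun n => by
    rw [Complex.cpow_neg, Complex.cpow_natCast]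
    push_cast
    rfl
  have e2 := hcast 2
  have e3 := hcast 3
  have e6 := hcast 6
  norm_num only [Nat.cast_ofNat] at e2 e3 e6
  rw [e2, e3, e6, ← Complex.ofReal_one, ← Complex.ofReal_sub, ← Complex.ofReal_sub,
    ← Complex.ofReal_sub, ← Complex.ofReal_inv, ← Complex.ofReal_inv, ← Complex.ofReal_inv,
    ← Complex.ofReal_mul, ← Complex.ofReal_mul, Complex.ofReal_inj]
  have hp' : (2 : ℝ) ≤ p := by exact_mod_cast hp
  have h1 : (p : ℝ) - 1 ≠ 0 := by linarith
  have hp0 : (p : ℝ) ≠ 0 := by linarith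
  have hgt : ∀ n : ℕ, 1 ≤ n → (p : ℝ) ^ n - 1 ≠ 0 := fun n hn => by
    have := le_self_pow₀ (show (1 : ℝ) ≤ p by linarith) (show n ≠ 0 by omega)
    linarith
  have h2 := hgt 2 (by norm_num)
  have h3 := hgt 3 (by norm_num)
  have h6 := hgt 6 (by norm_num)
  field_simp
  ring

/-- **`c ζ (6) = ζ (2) ζ (3)`.** -/
theorem titchmarshConst_zeta :
    (titchmarshConst : ℂ) * riemannZeta 6 = riemannZeta 2 * riemannZeta 3 := by
  have hr := EulerProduct.eulerProduct_hasProd (f := divisorWeight)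
    (by simp [divisorWeight]) (fun {m n} h => divisorWeight_mul h)
    (summable_divisorWeight.norm) (by simp [divisorWeight])
  have hc := hr.map Complex.ofRealHom Complex.continuous_ofReal
  have h6 := hc.mul (riemannZeta_eulerProduct_hasProd (s := 6) (by norm_num))
  have h23 := (riemannZeta_eulerProduct_hasProd (s := 2) (by norm_num)).mul
    (riemannZeta_eulerProduct_hasProd (s := 3) (by norm_num))
  refine h6.unique ?_
  convert h23 using 1
  funext p
  simp only [Function.comp_apply, Complex.ofRealHom_eq_coe, tsum_divisorWeight_pow]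
  exact euler_factor_eq p.2.two_le

end FA.PrimesMinusOne
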