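import Fermat.Agent.PrimesMinusOne.Ranges
import Fermat.Agent.Root.SummaryPrimeNumberTheorem

/-!
# Primes `p` with a large prime factor of `p - 1`

`∑_{p ≤ N} log (p - 1) = ∑_d Λ d π (N; d, 1)`, and the moduli `d ≤ N ^ (1/2 + 1/400)` and the prime
powers give less than three quarters of it.
-/

set_option autoImplicit false

noncomputable section

namespace FA.PrimesMinusOne

open Finset Filter
open scoped Nat Topology ArithmeticFunction.vonMangoldt

/-- The primes `p ≤ N` with a prime factor of `p - 1` above `M`. -/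
def largePrimes (M N : ℕ) : Finset ℕ :=
  (Icc 1 N).filter fun p => p.Prime ∧ ∃ q ∈ Ioc M N, q.Prime ∧ q ∣ p - 1

theorem sum_log_sub_one (N : ℕ) :
    ∑ p ∈ (Icc 1 N).filter Nat.Prime, Real.log ((p - 1 : ℕ) : ℝ) =
      ∑ d ∈ Ioc 0 N, Λ d * piOne N d := by
  classical
  have h1 : ∀ d : ℕ, Λ d * (piOne N d : ℝ) =
      ∑ p ∈ (Icc 1 N).filter Nat.Prime, if d ∣ p - 1 then Λ d else 0 := fun d => by
    rw [← sum_filter, sum_const, nsmul_eq_mul, mul_comm, piOne, filter_filter]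
    congr 2
    exact congrArg card (filter_congr fun p hp => and_congr_right fun _ =>
      ⟨fun h => (Nat.modEq_iff_dvd' (mem_Icc.1 hp).1).1 h.symm,
        fun h => ((Nat.modEq_iff_dvd' (mem_Icc.1 hp).1).2 h).symm⟩)
  simp only [h1]
  rw [sum_comm]
  refine sum_congr rfl fun p hp => ?_
  rw [mem_filter, mem_Icc] at hp
  have := hp.2.two_le
  rw [← ArithmeticFunction.vonMangoldt_sum, ← sum_filter]
  refine sum_congr ?_ fun _ _ => rfl
  ext d
  simp only [mem_filter, mem_Ioc, Nat.mem_divisors]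
  exact ⟨fun h => ⟨⟨Nat.pos_of_dvd_of_pos h.1 (by omega),
    (Nat.le_of_dvd (by omega) h.1).trans (by omega)⟩, h.1⟩, fun h => ⟨h.2, by omega⟩⟩

theorem sum_log_sub_one_ge (N : ℕ) :
    Chebyshev.theta (N : ℝ) - ((Icc 1 N).filter Nat.Prime).card ≤
      ∑ p ∈ (Icc 1 N).filter Nat.Prime, Real.log ((p - 1 : ℕ) : ℝ) := by
  have e : Chebyshev.theta (N : ℝ) = ∑ p ∈ (Icc 1 N).filter Nat.Prime, Real.log (p : ℕ) := by
    rw [Chebyshev.theta, Nat.floor_natCast]
    rfl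
  rw [e, show (((Icc 1 N).filter Nat.Prime).card : ℝ) =
    ∑ _p ∈ (Icc 1 N).filter Nat.Prime, (1 : ℝ) by simp, ← sum_sub_distrib]
  refine sum_le_sum fun p hp => ?_
  rw [mem_filter] at hp
  have hp2 := hp.2.two_le
  have h1 := Real.log_le_log (Nat.cast_pos.2 hp.2.pos)
    (show ((p : ℕ) : ℝ) ≤ 2 * ((p - 1 : ℕ) : ℝ) by
      exact_mod_cast (show p ≤ 2 * (p - 1) by omega))
  rw [Real.log_mul two_ne_zero (Nat.cast_ne_zero.2 (by omega))] at h1
  linarith [Real.log_two_lt_d9]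

theorem sum_large_le (M N : ℕ) (hM : N ≤ (M + 1) * (M + 1)) :
    ∑ q ∈ (Ioc M N).filter Nat.Prime, Λ q * piOne N q ≤
      Real.log N * (largePrimes M N).card := by
  classical
  have h1 : ∀ q : ℕ, (piOne N q : ℝ) =
      ∑ p ∈ (Icc 1 N).filter Nat.Prime, if q ∣ p - 1 then 1 else 0 := fun q => by
    rw [sum_boole, piOne, filter_filter]
    congr 1
    exact congrArg card (filter_congr fun p hp => and_congr_right fun _ =>
      ⟨fun h => (Nat.modEq_iff_dvd' (mem_Icc.1 hp).1).1 h.symm,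
        fun h => ((Nat.modEq_iff_dvd' (mem_Icc.1 hp).1).2 h).symm⟩)
  simp only [h1, mul_sum, mul_ite, mul_one, mul_zero]
  rw [sum_comm, show largePrimes M N = ((Icc 1 N).filter Nat.Prime).filter
    (fun p => ∃ q ∈ Ioc M N, q.Prime ∧ q ∣ p - 1) by rw [largePrimes, filter_filter],
    mul_comm (Real.log (N : ℕ)), ← nsmul_eq_mul, ← sum_const, sum_filter (s := (Icc 1 N).filter _)]
  refine sum_le_sum fun p hp => ?_
  rw [mem_filter, mem_Icc] at hp
  split_ifs with hex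
  · obtain ⟨q, hq, hqp, hqd⟩ := hex
    rw [sum_eq_single_of_mem q (mem_filter.2 ⟨hq, hqp⟩), if_pos hqd,
      ArithmeticFunction.vonMangoldt_apply_prime hqp]
    · exact Real.log_le_log (Nat.cast_pos.2 hqp.pos) (Nat.cast_le.2 (mem_Ioc.1 hq).2)
    · intro q' hq' hne
      rw [if_neg]
      intro hd
      rw [mem_filter, mem_Ioc] at hq'
      have h := Nat.le_of_dvd (by have := hp.2.two_le; omega)
        (((Nat.coprime_primes hqp hq'.2).2 hne.symm).mul_dvd_of_dvd_of_dvd hqd hd)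
      have h2 : (M + 1) * (M + 1) ≤ q * q' := Nat.mul_le_mul (mem_Ioc.1 hq).1 hq'.1.1
      omega
  · refine le_of_eq (sum_eq_zero fun q hq => if_neg fun hd => hex ?_)
    rw [mem_filter] at hq
    exact ⟨q, hq.1, hq.2, hd⟩

theorem sum_powers_le {M N : ℕ} (hM : 0 < M) (hN : 1 ≤ N) :
    ∑ d ∈ (Ioc M N).filter (fun d => ¬ d.Prime), Λ d * piOne N d ≤
      (N : ℝ) / M * (2 * Real.sqrt N * Real.log N) := by
  have h := Chebyshev.psi_sub_theta_le (x := (N : ℝ)) (Nat.one_le_cast.2 hN)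
  rw [Chebyshev.psi_sub_theta_eq_sum_not_prime, Nat.floor_natCast] at h
  refine le_trans ?_ (mul_le_mul_of_nonneg_left h (by positivity))
  rw [mul_sum]
  refine (sum_le_sum (g := fun d => (N : ℝ) / M * Λ d) fun d hd => ?_).trans
    (sum_le_sum_of_subset_of_nonneg (filter_subset_filter _ (Ioc_subset_Ioc_left (Nat.zero_le M)))
      fun d _ _ => mul_nonneg (by positivity) ArithmeticFunction.vonMangoldt_nonneg)
  rw [mul_comm _ (Λ d)]
  refine mul_le_mul_of_nonneg_left ((piOne_le N d).trans ?_) ArithmeticFunction.vonMangoldt_nonneg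
  exact div_le_div_of_nonneg_left (Nat.cast_nonneg N) (Nat.cast_pos.2 hM)
    (Nat.cast_le.2 (mem_Ioc.1 (mem_filter.1 hd).1).1.le)

theorem tendsto_primeCount_div :
    Tendsto (fun N : ℕ => (((Icc 1 N).filter Nat.Prime).card : ℝ) * Real.log N / N) atTop
      (𝓝 1) := by
  refine (PNT.Summary.prime_number_theorem.comp tendsto_natCast_atTop_atTop).congr fun N => ?_
  simp only [Function.comp_apply, Nat.floor_natCast]
  rw [Nat.primeCounting, Nat.primeCounting', Nat.count_eq_card_filter_range]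
  congr 4
  ext p
  simp only [mem_filter, mem_range, mem_Icc]
  exact ⟨fun h => ⟨⟨h.2.one_le, by omega⟩, h.2⟩, fun h => ⟨by omega, h.2⟩⟩

open Classical in
/-- **The theorem of Goldfeld**, with the exponent `1/2 + 1/400`. -/
theorem eventually_largePrimes :
    ∀ᶠ N : ℕ in atTop,
      (((Icc 1 N).filter Nat.Prime).card : ℝ) / 8 ≤
        (((Icc 1 N).filter fun p => p.Prime ∧
          ∃ q : ℕ, q.Prime ∧ q ∣ p - 1 ∧ (N : ℝ) ^ ((201 : ℝ) / 400) < q).card : ℝ) := by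
  obtain ⟨B, C, hBV⟩ := exists_sum_abs_thetaOne
  obtain ⟨θ, hθ⟩ : ∃ θ : ℝ, θ = 201 / 400 := ⟨_, rfl⟩
  rw [← hθ]
  obtain ⟨η, hη⟩ : ∃ η : ℝ, η = 1 / 10 := ⟨_, rfl⟩
  obtain ⟨U, hU⟩ : ∃ U : ℕ → ℝ, U = fun N =>
      ((∑ d ∈ Ioc 0 (cut (1 / 2) B N), Λ d / (d.totient : ℕ)) / Real.log N +
        C * (Real.log N)⁻¹ ^ 2 + 2 * (Real.log N ^ 2 * (N : ℝ) ^ (-η))) / (1 - η) +
      24 / (1 - θ) * ((∑ d ∈ Ioc (cut (1 / 2) B N) (cut θ 0 N), Λ d / (d.totient : ℕ)) /
        Real.log N) +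
      4 * (Real.log N ^ 1 * (N : ℝ) ^ (-((1 : ℝ) / 400))) := ⟨_, rfl⟩
  have hU' : Tendsto U atTop (𝓝 ((1 / 2 + 0 + 2 * 0) / (1 - η) + 24 / (1 - θ) * (θ - 1 / 2) +
      4 * 0)) := by
    rw [hU]
    refine ((((tendsto_vonMangoldt_cut (by norm_num) B).add ?_).add
      ((tendsto_log_mul_rpow_neg (hη ▸ by norm_num : 0 < η) 2).const_mul 2)).div_const (1 - η)
        |>.add ((tendsto_vonMangoldt_range (by norm_num) (hθ ▸ by norm_num : 1 / 2 ≤ θ)
          (Nat.zero_le B)).const_mul _)).add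
            ((tendsto_log_mul_rpow_neg (by norm_num) 1).const_mul 4)
    simpa using (tendsto_log_inv.pow 2).const_mul C
  have hUlt : (1 / 2 + 0 + 2 * 0) / (1 - η) + 24 / (1 - θ) * (θ - 1 / 2) + 4 * 0 <
      (7 / 10 : ℝ) := by
    rw [hη, hθ]
    norm_num
  have hπ : Tendsto (fun N : ℕ => (((Icc 1 N).filter Nat.Prime).card : ℝ) / N) atTop (𝓝 0) := by
    refine (by simpa using tendsto_primeCount_div.mul tendsto_log_inv :
      Tendsto (fun N : ℕ => (((Icc 1 N).filter Nat.Prime).card : ℝ) * Real.log N / N *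
        (Real.log N)⁻¹) atTop (𝓝 0)).congr' ?_
    filter_upwards [eventually_ge_atTop 3] with N hN
    have : Real.log N ≠ 0 := by linarith [one_le_log_of_three_le hN]
    field_simp
  filter_upwards [eventually_ge_atTop 3, hU'.eventually (eventually_lt_nhds hUlt),
    (PNT.Summary.tendsto_theta.comp tendsto_natCast_atTop_atTop).eventually
      (eventually_gt_nhds (show (98 / 100 : ℝ) < 1 by norm_num)),
    hπ.eventually (eventually_lt_nhds (show (0 : ℝ) < 1 / 100 by norm_num)),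
    tendsto_primeCount_div.eventually (eventually_lt_nhds (show (1 : ℝ) < 2 by norm_num)),
    eventually_cut (hθ ▸ by norm_num : 0 < θ) 0] with N hN hUN hthN hπN hπ2 hcutN
  simp only [Function.comp_apply] at hthN
  have hN0 : (0 : ℝ) < N := Nat.cast_pos.2 (by omega)
  have hN1 : (1 : ℝ) ≤ N := Nat.one_le_cast.2 (by omega)
  have hL := one_le_log_of_three_le hN
  have hL' : Real.log N ≠ 0 := by linarith
  obtain ⟨Q, hQ⟩ : ∃ Q, Q = cut (1 / 2) B N := ⟨_, rfl⟩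
  obtain ⟨M, hM⟩ : ∃ M, M = cut θ 0 N := ⟨_, rfl⟩
  have hQM : Q ≤ M := hQ ▸ hM ▸ cut_le_cut (hθ ▸ by norm_num) (Nat.zero_le B) hN
  have hMN : M ≤ N := hM ▸ cut_le_self 0 (hθ ▸ by norm_num) hN
  have hMle : (M : ℝ) ≤ (N : ℝ) ^ θ := hM ▸ by simpa using hcutN.2.1
  have hM1 : 1 ≤ M := hM ▸ hcutN.1
  have hMgt : (N : ℝ) ^ θ < (M + 1 : ℕ) := by
    rw [hM, cut, pow_zero, div_one]
    push_cast
    exact Nat.lt_floor_add_one _
  have hsq : Real.sqrt N ≤ (N : ℝ) ^ θ := by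
    rw [Real.sqrt_eq_rpow]
    exact Real.rpow_le_rpow_of_exponent_le hN1 (hθ ▸ by norm_num)
  have hMsq : N ≤ (M + 1) * (M + 1) := by
    rw [← Nat.cast_le (α := ℝ), Nat.cast_mul, ← Real.mul_self_sqrt hN0.le]
    exact mul_self_le_mul_self (Real.sqrt_nonneg _) (hsq.trans hMgt.le)
  -- the three ranges
  have h1 := hBV N hN Q (hQ ▸ cut_le_sqrt_div B le_rfl hN)
  have h2 := sum_piOne_le_theta (η := η) (V := Real.log N) (w := fun d => Λ d) hN (hη ▸ by norm_num)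
    (hη ▸ by norm_num) (fun d hd => ⟨ArithmeticFunction.vonMangoldt_nonneg,
      ArithmeticFunction.vonMangoldt_le_log.trans (Real.log_le_log
        (Nat.cast_pos.2 (mem_Icc.1 hd).1)
        (Nat.cast_le.2 ((mem_Icc.1 hd).2.trans (hQM.trans hMN))))⟩)
    (by linarith) (hQM.trans hMN) h1
  have h3 := sum_piOne_range_le (Q := Q) (M := M) hN (hθ ▸ by norm_num : θ < 1) hMle
    (w := fun d => Λ d) fun d => ArithmeticFunction.vonMangoldt_nonneg
  have h4 := sum_powers_le (M := M) (N := N) hM1 (by omega)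
  have h5 := sum_large_le M N hMsq
  have hIcc : Icc 1 Q = Ioc 0 Q := by
    ext
    simp
    omega
  rw [hIcc] at h2
  have hsplit : ∑ d ∈ Ioc 0 N, Λ d * piOne N d =
      ∑ d ∈ Ioc 0 Q, Λ d * piOne N d + ∑ d ∈ Ioc Q M, Λ d * piOne N d +
        (∑ d ∈ (Ioc M N).filter (fun d => ¬ d.Prime), Λ d * piOne N d +
          ∑ d ∈ (Ioc M N).filter Nat.Prime, Λ d * piOne N d) := by
    rw [add_comm (∑ d ∈ (Ioc M N).filter _, _), sum_filter_add_sum_filter_not,
      ← sum_union (Ioc_disjoint_Ioc_of_le le_rfl), Ioc_union_Ioc_eq_Ioc (Nat.zero_le Q) hQM,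
      ← sum_union (Ioc_disjoint_Ioc_of_le le_rfl), Ioc_union_Ioc_eq_Ioc (Nat.zero_le M) hMN]
  have hlog := (sum_log_sub_one_ge N).trans (le_of_eq ((sum_log_sub_one N).trans hsplit))
  -- their sizes
  obtain ⟨S, hS⟩ : ∃ S, S = ∑ d ∈ Ioc 0 Q, Λ d / (d.totient : ℕ) := ⟨_, rfl⟩
  obtain ⟨R, hR⟩ : ∃ R, R = ∑ d ∈ Ioc Q M, Λ d / (d.totient : ℕ) := ⟨_, rfl⟩
  rw [← hS] at h2
  rw [← hR] at h3
  have hrp : (N : ℝ) ^ (1 - η) = (N : ℝ) * (N : ℝ) ^ (-η) := by
    rw [sub_eq_add_neg, Real.rpow_one_add' hN0.le (by rw [hη]; norm_num)]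
  rw [hrp] at h2
  have e1 : ∑ d ∈ Ioc 0 Q, Λ d * piOne N d ≤ (S / Real.log N + C * (Real.log N)⁻¹ ^ 2 +
      2 * (Real.log N ^ 2 * (N : ℝ) ^ (-η))) / (1 - η) * N := by
    rw [div_mul_eq_mul_div, le_div_iff₀ (by rw [hη]; norm_num)]
    refine le_of_mul_le_mul_left ?_ (zero_lt_one.trans_le hL)
    refine le_trans (le_of_eq ?_) (h2.trans (le_of_eq ?_))
    · ring
    · field_simp
  have e2 : ∑ d ∈ Ioc Q M, Λ d * piOne N d ≤ 24 / (1 - θ) * (R / Real.log N) * N :=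
    h3.trans (le_of_eq (by generalize (1 - θ) = u; ring))
  have e3 : ∑ d ∈ (Ioc M N).filter (fun d => ¬ d.Prime), Λ d * piOne N d ≤
      4 * (Real.log N ^ 1 * (N : ℝ) ^ (-((1 : ℝ) / 400))) * N := by
    refine h4.trans ?_
    have h6 : (N : ℝ) ^ θ ≤ 2 * M := by
      have : ((M + 1 : ℕ) : ℝ) ≤ 2 * M := by exact_mod_cast (show M + 1 ≤ 2 * M by omega)
      linarith
    have h7 : Real.sqrt N ≤ 2 * M * (N : ℝ) ^ (-((1 : ℝ) / 400)) := by
      refine le_trans (le_of_eq ?_) (mul_le_mul_of_nonneg_right h6 (Real.rpow_nonneg hN0.le _))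
      rw [← Real.rpow_add hN0, Real.sqrt_eq_rpow, hθ]
      norm_num
    rw [div_mul_eq_mul_div, div_le_iff₀ (Nat.cast_pos.2 hM1)]
    have := mul_le_mul_of_nonneg_left h7 (mul_nonneg (Nat.cast_nonneg (α := ℝ) N)
      (show (0 : ℝ) ≤ 2 * Real.log N by linarith))
    linarith
  rw [hU] at hUN
  simp only [← hQ, ← hM, ← hS, ← hR] at hUN
  have e4 := mul_lt_mul_of_pos_right hUN hN0
  rw [add_mul, add_mul] at e4
  rw [lt_div_iff₀ hN0] at hthN
  rw [div_lt_iff₀ hN0] at hπN hπ2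
  have e5 : (largePrimes M N).card ≤ ((Icc 1 N).filter fun p => p.Prime ∧
      ∃ q : ℕ, q.Prime ∧ q ∣ p - 1 ∧ (N : ℝ) ^ θ < q).card := by
    refine card_le_card fun p hp => ?_
    rw [largePrimes, mem_filter] at hp
    obtain ⟨hp1, hp2, q, hq, hqp, hqd⟩ := hp
    exact mem_filter.2 ⟨hp1, hp2, q, hqp, hqd,
      hMgt.trans_le (Nat.cast_le.2 (mem_Ioc.1 hq).1)⟩
  refine le_trans ?_ (Nat.cast_le.2 e5)
  refine le_of_mul_le_mul_left ?_ (zero_lt_one.trans_le hL)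
  linarith

end FA.PrimesMinusOne
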