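import Fermat.Agent.PrimesMinusOne.Moduli

/-!
# Weighted sums of `π (N; d, 1)` over the ranges of `d`
-/

set_option autoImplicit false

noncomputable section

namespace FA.PrimesMinusOne

open Finset Filter
open scoped Nat Topology

theorem tendsto_log_mul_rpow_neg {η : ℝ} (hη : 0 < η) (m : ℕ) :
    Tendsto (fun N : ℕ => Real.log N ^ m * (N : ℝ) ^ (-η)) atTop (𝓝 0) := by
  have h := (isLittleO_log_rpow_rpow_atTop (m : ℝ) hη).tendsto_div_nhds_zero
  refine (h.comp tendsto_natCast_atTop_atTop).congr fun N => ?_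
  simp only [Function.comp_apply]
  rw [Real.rpow_natCast, Real.rpow_neg (Nat.cast_nonneg N), ← div_eq_mul_inv]

theorem tendsto_log_inv : Tendsto (fun N : ℕ => (Real.log N)⁻¹) atTop (𝓝 0) :=
  tendsto_inv_atTop_zero.comp (Real.tendsto_log_atTop.comp tendsto_natCast_atTop_atTop)

theorem cut_le_sqrt_div {θ : ℝ} (B : ℕ) {N : ℕ} (hθ : θ ≤ 1 / 2) (hN : 3 ≤ N) :
    (cut θ B N : ℝ) ≤ Real.sqrt N / Real.log N ^ B := by
  have hN1 : (1 : ℝ) ≤ N := Nat.one_le_cast.2 (by omega)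
  refine (Nat.floor_le (div_nonneg (Real.rpow_nonneg (by linarith) _)
    (pow_nonneg (Real.log_natCast_nonneg N) B))).trans
      (div_le_div_of_nonneg_right ?_ (pow_nonneg (Real.log_natCast_nonneg N) B))
  rw [Real.sqrt_eq_rpow]
  exact Real.rpow_le_rpow_of_exponent_le hN1 hθ

theorem one_le_log_of_three_le {N : ℕ} (hN : 3 ≤ N) : 1 ≤ Real.log N := by
  have h3 : (3 : ℝ) ≤ N := Nat.ofNat_le_cast.2 hN
  rw [Real.le_log_iff_exp_le (by linarith)]
  linarith [Real.exp_one_lt_d9]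

theorem cut_le_self {θ : ℝ} (B : ℕ) {N : ℕ} (hθ : θ ≤ 1) (hN : 3 ≤ N) : cut θ B N ≤ N := by
  have hN1 : (1 : ℝ) ≤ N := Nat.one_le_cast.2 (by omega)
  refine (Nat.cast_le (α := ℝ)).1 ((Nat.floor_le (div_nonneg (Real.rpow_nonneg (by linarith) _)
    (pow_nonneg (Real.log_natCast_nonneg N) B))).trans ?_)
  refine (div_le_self (Real.rpow_nonneg (by linarith) _)
    (one_le_pow₀ (one_le_log_of_three_le hN))).trans ?_
  simpa using Real.rpow_le_rpow_of_exponent_le hN1 hθ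

/-- A weighted version of `π ≤ θ / ((1 - η) log N)`. -/
theorem sum_piOne_le_theta {N Q : ℕ} (hN : 3 ≤ N) {η : ℝ} (hη0 : 0 ≤ η) (hη : η < 1)
    {w : ℕ → ℝ} {V : ℝ} (hw : ∀ d ∈ Icc 1 Q, 0 ≤ w d ∧ w d ≤ V) (hV : 0 ≤ V) (hQ : Q ≤ N)
    {E : ℝ} (hE : ∑ d ∈ Icc 1 Q, |thetaOne N d - N / (d.totient : ℕ)| ≤ E) :
    (1 - η) * Real.log N * ∑ d ∈ Icc 1 Q, w d * piOne N d ≤
      N * ∑ d ∈ Icc 1 Q, w d / (d.totient : ℕ) + V * E +
        2 * V * (Real.log N ^ 2 * (N : ℝ) ^ (1 - η)) := by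
  have hl := one_le_log_of_three_le hN
  have hp : 0 ≤ (N : ℝ) ^ (1 - η) := Real.rpow_nonneg (Nat.cast_nonneg N) _
  rw [mul_sum]
  refine (sum_le_sum (g := fun d => (w d * (N / (d.totient : ℕ)) +
    V * |thetaOne N d - N / (d.totient : ℕ)|) +
      V * (Real.log N * (N : ℝ) ^ (1 - η)) * ((d : ℕ) : ℝ)⁻¹) fun d hd => ?_).trans ?_
  · obtain ⟨hw0, hwV⟩ := hw d hd
    rw [mul_left_comm]
    refine (mul_le_mul_of_nonneg_left (piOne_le_theta (d := d) (by omega) hη hη0) hw0).trans ?_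
    rw [mul_add]
    refine add_le_add ?_ ?_
    · have h1 : thetaOne N d ≤ N / (d.totient : ℕ) + |thetaOne N d - N / (d.totient : ℕ)| := by
        linarith [le_abs_self (thetaOne N d - N / (d.totient : ℕ))]
      refine (mul_le_mul_of_nonneg_left h1 hw0).trans ?_
      rw [mul_add]
      exact add_le_add le_rfl (mul_le_mul_of_nonneg_right hwV (abs_nonneg _))
    · rw [mul_assoc V, mul_assoc (Real.log N), ← div_eq_mul_inv]
      exact mul_le_mul_of_nonneg_right hwV (mul_nonneg (by linarith)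
        (div_nonneg hp (Nat.cast_nonneg d)))
  rw [sum_add_distrib, sum_add_distrib, ← mul_sum, ← mul_sum]
  have h2 : ∑ d ∈ Icc 1 Q, ((d : ℕ) : ℝ)⁻¹ ≤ 2 * Real.log N := by
    have h := harmonic_le_one_add_log N
    rw [harmonic_eq_sum_Icc] at h
    push_cast at h
    refine le_trans (sum_le_sum_of_subset_of_nonneg (Icc_subset_Icc_right hQ)
      fun d _ _ => by positivity) ?_
    linarith
  refine add_le_add (add_le_add (le_of_eq ?_) (mul_le_mul_of_nonneg_left hE hV)) ?_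
  · rw [mul_sum]
    exact sum_congr rfl fun d _ => by ring
  · refine (mul_le_mul_of_nonneg_left h2 (mul_nonneg hV (mul_nonneg (by linarith) hp))).trans
      (le_of_eq ?_)
    ring

/-- A weighted range of moduli `≤ N ^ θ`, by Brun and Titchmarsh. -/
theorem sum_piOne_range_le {N Q M : ℕ} (hN : 3 ≤ N) {θ : ℝ} (hθ : θ < 1)
    (hM : (M : ℝ) ≤ (N : ℝ) ^ θ) {w : ℕ → ℝ} (hw : ∀ d, 0 ≤ w d) :
    ∑ d ∈ Ioc Q M, w d * piOne N d ≤
      24 * N / ((1 - θ) * Real.log N) * ∑ d ∈ Ioc Q M, w d / (d.totient : ℕ) := by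
  have hN1 : (1 : ℝ) ≤ N := Nat.one_le_cast.2 (by omega)
  have hN2 : (1 : ℝ) < N := Nat.one_lt_cast.2 (by omega)
  have hlt : (N : ℝ) ^ θ < N := by
    conv_rhs => rw [← Real.rpow_one (N : ℝ)]
    exact Real.rpow_lt_rpow_of_exponent_lt hN2 hθ
  have hL : 0 < (1 - θ) * Real.log N :=
    mul_pos (by linarith) (zero_lt_one.trans_le (one_le_log_of_three_le hN))
  rw [mul_sum]
  refine sum_le_sum fun d hd => ?_
  rw [mem_Ioc] at hd
  have hd1 : 0 < d := by omega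
  have hdθ : (d : ℝ) ≤ (N : ℝ) ^ θ := (Nat.cast_le.2 hd.2).trans hM
  have hdN : d < N := Nat.cast_lt.1 (hdθ.trans_lt hlt)
  have htot : (0 : ℝ) < (d.totient : ℕ) := Nat.cast_pos.2 (Nat.totient_pos.2 hd1)
  have hlog : (1 - θ) * Real.log N ≤ Real.log ((N : ℝ) / d) := by
    rw [Real.log_div (by linarith) (Nat.cast_ne_zero.2 hd1.ne')]
    have := Real.log_le_log (Nat.cast_pos.2 hd1) hdθ
    rw [Real.log_rpow (by linarith)] at this
    linarith
  refine (mul_le_mul_of_nonneg_left ((piOne_brunTitchmarsh hd1 hdN).trans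
    (div_le_div_of_nonneg_left (by positivity) (mul_pos htot hL)
      (mul_le_mul_of_nonneg_left hlog htot.le))) (hw d)).trans (le_of_eq ?_)
  generalize (1 - θ) * Real.log N = L
  ring

theorem sum_Ioc_eq_sub (f : ℕ → ℝ) {Q M : ℕ} (h : Q ≤ M) :
    ∑ d ∈ Ioc Q M, f d = ∑ d ∈ Icc 1 M, f d - ∑ d ∈ Icc 1 Q, f d := by
  have e : Icc 1 M = Icc 1 Q ∪ Ioc Q M := by
    ext d
    simp only [mem_Icc, mem_union, mem_Ioc]
    omega
  rw [e, sum_union (disjoint_left.2 fun d h1 h2 => by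
    rw [mem_Icc] at h1
    rw [mem_Ioc] at h2
    omega), add_sub_cancel_left]

theorem cut_le_cut {θ θ' : ℝ} (hθ : θ ≤ θ') {B B' N : ℕ} (hB : B' ≤ B) (hN : 3 ≤ N) :
    cut θ B N ≤ cut θ' B' N := by
  have hN1 : (1 : ℝ) ≤ N := Nat.one_le_cast.2 (by omega)
  refine Nat.floor_mono (div_le_div₀ (Real.rpow_nonneg (by linarith) _)
    (Real.rpow_le_rpow_of_exponent_le hN1 hθ)
    (pow_pos (zero_lt_one.trans_le (one_le_log_of_three_le hN)) B')
    (pow_le_pow_right₀ (one_le_log_of_three_le hN) hB))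

theorem tendsto_totient_range {θ θ' : ℝ} (hθ : 0 < θ) (hθ' : θ ≤ θ') {B B' : ℕ} (hB : B' ≤ B) :
    Tendsto (fun N : ℕ =>
      (∑ d ∈ Ioc (cut θ B N) (cut θ' B' N), ((d.totient : ℕ) : ℝ)⁻¹) / Real.log N)
      atTop (𝓝 (titchmarshConst * (θ' - θ))) := by
  rw [mul_sub]
  refine ((tendsto_totient_cut (hθ.trans_le hθ') B').sub (tendsto_totient_cut hθ B)).congr' ?_
  filter_upwards [eventually_ge_atTop 3] with N hN
  rw [← sub_div, sum_Ioc_eq_sub _ (cut_le_cut hθ' hB hN)]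

theorem tendsto_vonMangoldt_range {θ θ' : ℝ} (hθ : 0 < θ) (hθ' : θ ≤ θ') {B B' : ℕ}
    (hB : B' ≤ B) :
    Tendsto (fun N : ℕ => (∑ d ∈ Ioc (cut θ B N) (cut θ' B' N),
        ArithmeticFunction.vonMangoldt d / (d.totient : ℕ)) / Real.log N)
      atTop (𝓝 (θ' - θ)) := by
  refine ((tendsto_vonMangoldt_cut (hθ.trans_le hθ') B').sub
    (tendsto_vonMangoldt_cut hθ B)).congr' ?_
  filter_upwards [eventually_ge_atTop 3] with N hN
  rw [← sub_div, sum_Ioc_eq_sub _ (cut_le_cut hθ' hB hN)]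
  rfl

end FA.PrimesMinusOne
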